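/-
S13 library, brick [D]: arithmetic of the Frey curve coefficients at the prime `2`, and
valuations of rational numbers at a valuation subring over `2`.
-/
import Mathlib
import Fermat.Prelude.Def_FLTPrelim_FreyPackage
import Fermat.Prelude.Def_FLTPrelim_Ramification
import Fermat.Agent.S05lib.Frey

set_option autoImplicit false

namespace Fermat.Agent.S13lib.Node2

open Fermat.Agent.S05lib (vint_le_one vint_lt_one_of_dvd vint_eq_one_of_not_dvd)

section ints

/-- A nonzero integer is a power of two times an odd integer. -/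
lemma int_two_pow_mul_odd {z : ℤ} (hz : z ≠ 0) : ∃ (i : ℕ) (c : ℤ), ¬ (2 : ℤ) ∣ c ∧ z = 2 ^ i * c := by
  have hfin : FiniteMultiplicity (2 : ℤ) z := Int.finiteMultiplicity_iff.mpr ⟨by decide, hz⟩
  obtain ⟨c, hc, hnd⟩ := hfin.exists_eq_pow_mul_and_not_dvd
  exact ⟨_, c, hnd, hc⟩

variable (P : FreyPackage)

lemma frey_two_dvd_b : (2 : ℤ) ∣ P.b := (ZMod.intCast_zmod_eq_zero_iff_dvd P.b 2).1 P.hb2

lemma frey_a_odd : ¬ (2 : ℤ) ∣ P.a := by
  intro h
  obtain ⟨k, hk⟩ := h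
  have h4 := P.ha4
  rw [hk] at h4
  push_cast at h4
  -- `2 * k` is `0` or `2` modulo `4`
  have : ((2 : ZMod 4) * (k : ZMod 4)) = 0 ∨ ((2 : ZMod 4) * (k : ZMod 4)) = 2 := by
    generalize (k : ZMod 4) = t
    revert t
    decide
  rcases this with h0 | h0 <;> rw [h0] at h4 <;> exact absurd h4 (by decide)

/-- The coefficient `a₂` of the Frey curve is an integer. -/
lemma frey_a2_int : ∃ A2 : ℤ, (A2 : ℚ) = P.freyCurve.a₂ := by
  have hodd := P.hp_odd
  have h4 : (4 : ℤ) ∣ P.b ^ P.p - 1 - P.a ^ P.p := by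
    have h2 : ((4 : ℕ) : ℤ) ∣ P.b ^ P.p - 1 - P.a ^ P.p := by
      rw [← ZMod.intCast_zmod_eq_zero_iff_dvd]
      push_cast
      rw [P.ha4]
      have hb : ((P.b : ZMod 4)) ^ P.p = 0 := by
        obtain ⟨k, hk⟩ := frey_two_dvd_b P
        have hp2 : 2 ≤ P.p := by have := P.hp5; omega
        obtain ⟨d, hd⟩ : ∃ d, P.p = 2 + d := ⟨P.p - 2, by omega⟩
        rw [hk, hd]
        push_cast
        rw [mul_pow, pow_add]
        have : ((2 : ZMod 4)) ^ 2 = 0 := by decide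
        rw [this, zero_mul, zero_mul]
      have ha : ((3 : ZMod 4)) ^ P.p = 3 := by
        obtain ⟨m, hm⟩ := hodd
        rw [hm, pow_succ, pow_mul]
        have : ((3 : ZMod 4)) ^ 2 = 1 := by decide
        rw [this, one_pow, one_mul]
      rw [hb, ha]
      decide
    simpa using h2
  obtain ⟨A2, hA2⟩ := h4
  refine ⟨A2, ?_⟩
  have : ((P.b : ℚ) ^ P.p - 1 - (P.a : ℚ) ^ P.p) = 4 * (A2 : ℚ) := by
    exact_mod_cast congrArg (fun z : ℤ => (z : ℚ)) hA2
  simp only [FreyPackage.freyCurve]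
  rw [this]
  ring

/-- The coefficient `a₄` of the Frey curve is an integer of the form `2 ^ M * c` with `c` odd,
`M > 0` and `p ∤ M`. -/
lemma frey_a4_int : ∃ (A4 : ℤ) (M : ℕ) (c : ℤ), (A4 : ℚ) = P.freyCurve.a₄ ∧ 0 < M ∧
    ¬ (P.p : ℤ) ∣ (M : ℤ) ∧ ¬ (2 : ℤ) ∣ c ∧ A4 = 2 ^ M * c := by
  obtain ⟨e, b', hb'odd, hb'⟩ := int_two_pow_mul_odd P.hb0
  have hp5 := P.hp5
  have he : 1 ≤ e := by
    by_contra he
    have he0 : e = 0 := by omega
    rw [he0, pow_zero, one_mul] at hb'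
    exact hb'odd (hb' ▸ frey_two_dvd_b P)
  have hep : 5 ≤ e * P.p := by nlinarith
  obtain ⟨M, hM⟩ : ∃ M : ℕ, e * P.p = M + 4 := ⟨e * P.p - 4, by omega⟩
  have hprime2 : Prime (2 : ℤ) := Int.prime_two
  refine ⟨2 ^ M * (-(P.a ^ P.p * b' ^ P.p)), M, -(P.a ^ P.p * b' ^ P.p), ?_, by omega, ?_, ?_, rfl⟩
  · simp only [FreyPackage.freyCurve]
    have hb'' : (P.b : ℚ) = 2 ^ e * (b' : ℚ) := by exact_mod_cast congrArg (fun z : ℤ => (z : ℚ)) hb'
    rw [hb'', mul_pow, ← pow_mul, hM, pow_add]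
    push_cast
    ring
  · intro hdvd
    have h1 : (P.p : ℤ) ∣ ((e * P.p : ℕ) : ℤ) := by
      push_cast
      exact Dvd.intro_left _ rfl
    rw [hM] at h1
    push_cast at h1
    have h2 : (P.p : ℤ) ∣ 4 := (Int.dvd_add_right hdvd).mp h1
    have h3 : P.p ∣ 4 := by exact_mod_cast h2
    have h4 : P.p ≤ 4 := Nat.le_of_dvd (by norm_num) h3
    omega
  · rw [Int.dvd_neg]
    intro h
    rcases hprime2.dvd_or_dvd h with h1 | h1
    · exact frey_a_odd P (hprime2.dvd_of_dvd_pow h1)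
    · exact hb'odd (hprime2.dvd_of_dvd_pow h1)

end ints

section vals

local notation "Kbar" => AlgebraicClosure ℚ

variable (A : ValuationSubring Kbar) (h2A : A.valuation (2 : Kbar) < 1)
include h2A

lemma val_int_two_pow_mul {i : ℕ} {c : ℤ} (hc : ¬ (2 : ℤ) ∣ c) :
    A.valuation (((2 ^ i * c : ℤ) : Kbar)) = A.valuation (2 : Kbar) ^ i := by
  have h2A' : A.valuation ((2 : ℕ) : Kbar) < 1 := by simpa using h2A
  have hc1 : A.valuation (c : Kbar) = 1 :=
    vint_eq_one_of_not_dvd A Nat.prime_two h2A' (by simpa using hc)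
  push_cast
  rw [map_mul, map_pow, hc1, mul_one]

/-- The value group of `ℚ` at a valuation subring over `2` is generated by `v 2`. -/
lemma val_rat_eq_zpow (q : ℚ) (hq : q ≠ 0) :
    ∃ k : ℤ, A.valuation (algebraMap ℚ Kbar q) = A.valuation (2 : Kbar) ^ k := by
  have hn : q.num ≠ 0 := Rat.num_ne_zero.mpr hq
  have hd : (q.den : ℤ) ≠ 0 := by exact_mod_cast q.den_nz
  obtain ⟨i, c, hc, hnum⟩ := int_two_pow_mul_odd hn
  obtain ⟨j, d, hd', hden⟩ := int_two_pow_mul_odd hd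
  refine ⟨(i : ℤ) - j, ?_⟩
  have hq' : algebraMap ℚ Kbar q = ((q.num : ℤ) : Kbar) / (((q.den : ℤ)) : Kbar) := by
    conv_lhs => rw [← Rat.num_div_den q]
    rw [map_div₀]
    simp
  have h20 : A.valuation (2 : Kbar) ≠ 0 := by
    rw [Valuation.ne_zero_iff]; norm_num
  rw [hq', map_div₀, hnum, hden, val_int_two_pow_mul A h2A hc, val_int_two_pow_mul A h2A hd',
    zpow_sub₀ h20, zpow_natCast, zpow_natCast]

/-- The residue field of `ℚ` at a valuation subring over `2` is `𝔽₂`: units are `≡ 1`. -/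
lemma val_rat_sub_one_lt (q : ℚ) (hq : A.valuation (algebraMap ℚ Kbar q) = 1) :
    A.valuation (algebraMap ℚ Kbar q - 1) < 1 := by
  have h2A' : A.valuation ((2 : ℕ) : Kbar) < 1 := by simpa using h2A
  have hq' : algebraMap ℚ Kbar q = ((q.num : ℤ) : Kbar) / (((q.den : ℤ)) : Kbar) := by
    conv_lhs => rw [← Rat.num_div_den q]
    rw [map_div₀]
    simp
  have hd0 : (((q.den : ℤ)) : Kbar) ≠ 0 := by
    have := q.den_nz
    exact_mod_cast this
  have hvd0 : A.valuation (((q.den : ℤ)) : Kbar) ≠ 0 := (Valuation.ne_zero_iff _).mpr hd0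
  rw [hq', map_div₀, div_eq_one_iff_eq hvd0] at hq
  -- the denominator is odd
  have hden : ¬ (2 : ℤ) ∣ (q.den : ℤ) := by
    intro hd
    have hn : ¬ (2 : ℤ) ∣ q.num := by
      intro hn
      have hcop := q.reduced
      have h1 : (2 : ℕ) ∣ q.num.natAbs := by
        have := Int.natAbs_dvd_natAbs.mpr hn
        simpa using this
      have h2 : (2 : ℕ) ∣ q.den := by exact_mod_cast hd
      have := Nat.dvd_gcd h1 h2
      rw [hcop] at this
      omega
    have h1 : A.valuation ((q.num : ℤ) : Kbar) = 1 :=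
      vint_eq_one_of_not_dvd A Nat.prime_two h2A' (by simpa using hn)
    have h3 : A.valuation (((q.den : ℤ)) : Kbar) < 1 :=
      vint_lt_one_of_dvd A h2A' (by simpa using hd)
    rw [← hq, h1] at h3
    exact lt_irrefl _ h3
  have hvd : A.valuation (((q.den : ℤ)) : Kbar) = 1 :=
    vint_eq_one_of_not_dvd A Nat.prime_two h2A' (by simpa using hden)
  have hnum : ¬ (2 : ℤ) ∣ q.num := by
    intro hn
    have h3 : A.valuation ((q.num : ℤ) : Kbar) < 1 :=
      vint_lt_one_of_dvd A h2A' (by simpa using hn)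
    rw [hq, hvd] at h3
    exact lt_irrefl _ h3
  have hsub : (2 : ℤ) ∣ q.num - (q.den : ℤ) := by
    have h1 : q.num % 2 = 1 := by omega
    have h2 : (q.den : ℤ) % 2 = 1 := by omega
    omega
  have e : ((q.num : ℤ) : Kbar) / (((q.den : ℤ)) : Kbar) - 1 =
      (((q.num - (q.den : ℤ) : ℤ)) : Kbar) / (((q.den : ℤ)) : Kbar) := by
    push_cast
    field_simp
  rw [hq', e, map_div₀, hvd, div_one]
  exact vint_lt_one_of_dvd A h2A' (by simpa using hsub)

end vals

end Fermat.Agent.S13lib.Node2
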