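/-
S13 library, brick [D]: the Frey curve at the prime `2`.
* `frey_unipotent_at_two` : inertia at `2` acts unipotently on the `p`-torsion;
* `frey_no_rational_torsion` : a Galois-fixed point of order dividing `p` is trivial.
-/
import Mathlib
import Fermat.Prelude.Def_FLTPrelim_FreyPackage
import Fermat.Prelude.Def_FLTPrelim_Ramification
import Fermat.Agent.S05lib.Glue
import Fermat.Agent.S05lib.InertiaFacts
import Fermat.Agent.Helper5.FrobExists
import Fermat.Agent.S13lib.ValAut
import Fermat.Agent.S13lib.Node2.Rational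
import Fermat.Agent.S13lib.Node2.FreyArith

set_option autoImplicit false
set_option linter.unusedSectionVars false

namespace Fermat.Agent.S13lib.Node2

open WeierstrassCurve WeierstrassCurve.Affine WeierstrassCurve.Affine.Point
open Fermat.Agent.S05lib (ptCast ptCast_some ptCast_symm_some inertia_facts vint_le_one
  vint_lt_one_of_dvd vint_eq_one_of_not_dvd)

local notation "Kbar" => AlgebraicClosure ℚ

section glue

variable {W : Affine ℚ} {a' b' : Kbar} (hW : (W⁄Kbar : WeierstrassCurve Kbar) = nodeW a' b')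

/-- The action of `σ` on points, transported to the model `nodeW a' b'`. -/
noncomputable def tauOf (σ : Kbar ≃ₐ[ℚ] Kbar) :
    (nodeW a' b').toAffine.Point →+ (nodeW a' b').toAffine.Point :=
  (ptCast hW).toAddMonoidHom.comp ((Point.map (W' := W) σ.toAlgHom).comp
    (ptCast hW).symm.toAddMonoidHom)

lemma tauOf_some (σ : Kbar ≃ₐ[ℚ] Kbar) (x y : Kbar)
    (hP : (nodeW a' b').toAffine.Nonsingular x y) :
    ∃ hP' : (nodeW a' b').toAffine.Nonsingular (σ x) (σ y),
      tauOf hW σ (.some x y hP) = .some (σ x) (σ y) hP' := by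
  obtain ⟨h1, e1⟩ := ptCast_symm_some hW hP
  have h2 : (W⁄Kbar).Nonsingular (σ.toAlgHom x) (σ.toAlgHom y) :=
    (baseChange_nonsingular W σ.toAlgHom.injective x y).mpr h1
  obtain ⟨h3, e3⟩ := ptCast_some hW h2
  refine ⟨h3, ?_⟩
  change ptCast hW (Point.map σ.toAlgHom ((ptCast hW).symm (.some x y hP))) = _
  rw [e1, Point.map_some]
  exact e3

lemma ptCast_smul (σ : Kbar ≃ₐ[ℚ] Kbar) (T : (W⁄Kbar).Point) :
    ptCast hW (σ • T) = tauOf hW σ (ptCast hW T) := by
  change ptCast hW (σ • T) = ptCast hW (Point.map σ.toAlgHom ((ptCast hW).symm (ptCast hW T)))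
  rw [AddEquiv.symm_apply_apply]
  rfl

/-- The image of a Galois-fixed point has rational coordinates. -/
lemma ptRat_of_fixed (T : (W⁄Kbar).Point) (hfix : ∀ σ : Kbar ≃ₐ[ℚ] Kbar, σ • T = T) :
    PtRat a' b' (fun x => x ∈ Set.range (algebraMap ℚ Kbar)) (ptCast hW T) := by
  rcases hQ : ptCast hW T with _ | ⟨x, y, hxy⟩
  · trivial
  · have hT : T = (ptCast hW).symm (.some x y hxy) := by
      rw [← hQ, AddEquiv.symm_apply_apply]
    obtain ⟨h1, e1⟩ := ptCast_symm_some hW hxy
    rw [e1] at hT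
    have key : ∀ σ : Kbar ≃ₐ[ℚ] Kbar, σ x = x ∧ σ y = y := by
      intro σ
      have h2 := hfix σ
      rw [hT] at h2
      change Point.map σ.toAlgHom (Point.some x y h1) = Point.some x y h1 at h2
      rw [Point.map_some, Point.some.injEq] at h2
      exact h2
    exact ⟨(InfiniteGalois.mem_range_algebraMap_iff_fixed x).mpr (fun σ => (key σ).1),
      (InfiniteGalois.mem_range_algebraMap_iff_fixed y).mpr (fun σ => (key σ).2)⟩

end glue

section frey

variable (P : FreyPackage)

lemma frey_baseChange {A2 A4 : ℤ} (h2 : (A2 : ℚ) = P.freyCurve.a₂)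
    (h4 : (A4 : ℚ) = P.freyCurve.a₄) :
    ((P.freyCurve : Affine ℚ)⁄Kbar : WeierstrassCurve Kbar) = nodeW (A2 : Kbar) (A4 : Kbar) := by
  have h : P.freyCurve = nodeW (A2 : ℚ) (A4 : ℚ) := by
    ext
    · rfl
    · exact h2.symm
    · rfl
    · exact h4.symm
    · rfl
  have h' : ((P.freyCurve : Affine ℚ)⁄Kbar : WeierstrassCurve Kbar) =
      (P.freyCurve).map (algebraMap ℚ Kbar) := rfl
  rw [h', h, nodeW_map, map_intCast, map_intCast]

/-- The node data of the Frey curve at a valuation subring over `2`. -/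
lemma frey_node2Data (A : ValuationSubring Kbar) (h2A : A.valuation (2 : Kbar) < 1)
    {A2 A4 : ℤ} {M : ℕ} {c : ℤ} (hM : 0 < M) (hc : ¬ (2 : ℤ) ∣ c) (hA4 : A4 = 2 ^ M * c) :
    ∃ r : Kbar, Node2Data A.valuation (A2 : Kbar) (A4 : Kbar) r := by
  have h2A' : A.valuation ((2 : ℕ) : Kbar) < 1 := by simpa using h2A
  obtain ⟨s, hs⟩ := IsAlgClosed.exists_pow_nat_eq (1 + 4 * (A2 : Kbar)) (n := 2) (by norm_num)
  have h20 : (2 : Kbar) ≠ 0 := two_ne_zero
  set r : Kbar := (s - 1) / 2 with hr
  have hr2 : r ^ 2 + r = (A2 : Kbar) := by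
    rw [hr]
    field_simp
    linear_combination hs
  have hA2 : A.valuation (A2 : Kbar) ≤ 1 := vint_le_one A A2
  have hr1 : A.valuation r ≤ 1 := by
    by_contra hcon
    push Not at hcon
    have hr0 : 0 < A.valuation r := lt_trans zero_lt_one hcon
    have h1 : A.valuation r < A.valuation (r ^ 2) := by
      rw [map_pow, pow_two]
      calc A.valuation r = 1 * A.valuation r := (one_mul _).symm
        _ < A.valuation r * A.valuation r := (mul_lt_mul_iff_left₀ hr0).mpr hcon
    have h3 : A.valuation (r ^ 2 + r) = A.valuation r ^ 2 := by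
      rw [Valuation.map_add_eq_of_lt_left _ h1, map_pow]
    rw [hr2] at h3
    rw [h3] at hA2
    exact absurd (one_lt_pow₀ hcon (by norm_num)) (not_lt.mpr hA2)
  have hs1 : A.valuation (2 * r + 1) = 1 := by
    have h1 : A.valuation (2 * r) < A.valuation (1 : Kbar) := by
      rw [map_mul, map_one]
      calc A.valuation 2 * A.valuation r ≤ A.valuation 2 * 1 := mul_le_mul_right hr1 _
        _ = A.valuation 2 := mul_one _
        _ < 1 := h2A
    rw [Valuation.map_add_eq_of_lt_right _ h1, map_one]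
  refine ⟨r, ?_⟩
  exact
    { hb := vint_lt_one_of_dvd A h2A' (by
        rw [hA4]
        obtain ⟨M', rfl⟩ : ∃ M', M = M' + 1 := ⟨M - 1, by omega⟩
        exact ⟨2 ^ M' * c, by push_cast; ring⟩)
      hb0 := by
        have : A4 ≠ 0 := by
          rw [hA4]
          refine mul_ne_zero (pow_ne_zero _ two_ne_zero) ?_
          rintro rfl
          exact hc (dvd_zero _)
        exact_mod_cast this
      hr := hr2
      hr1 := hr1
      hs := hs1 }

lemma frey_val_p (A : ValuationSubring Kbar) (h2A : A.valuation (2 : Kbar) < 1) :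
    A.valuation ((P.p : ℕ) : Kbar) = 1 := by
  have h2A' : A.valuation ((2 : ℕ) : Kbar) < 1 := by simpa using h2A
  have hnd : ¬ ((2 : ℕ) : ℤ) ∣ (P.p : ℤ) := by
    intro h
    have h' : 2 ∣ P.p := by exact_mod_cast h
    have := (Nat.prime_dvd_prime_iff_eq Nat.prime_two P.pp).mp h'
    have := P.hp5
    omega
  have := vint_eq_one_of_not_dvd A Nat.prime_two h2A' hnd
  simpa using this

/-- **(D1)** Inertia at `2` acts unipotently on the `p`-torsion of the Frey curve. -/
theorem frey_unipotent_at_two (A : ValuationSubring Kbar) (hA : A.LiesOverPrime 2)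
    (σ : Kbar ≃ₐ[ℚ] Kbar) (hσ : σ ∈ A.inertiaSubgroupIn ℚ)
    (T : ((P.freyCurve : Affine ℚ)⁄Kbar).Point) (hT : P.p • T = 0) :
    σ • (σ • T - T) = σ • T - T := by
  have h2A' : A.valuation ((2 : ℕ) : Kbar) < 1 := hA
  have h2A : A.valuation (2 : Kbar) < 1 := by simpa using h2A'
  obtain ⟨A2, hA2⟩ := frey_a2_int P
  obtain ⟨A4, M, c, hA4, hM, -, hc, hA4'⟩ := frey_a4_int P
  obtain ⟨r, hnode⟩ := frey_node2Data (A2 := A2) A h2A hM hc hA4'
  have hW := frey_baseChange P hA2 hA4
  obtain ⟨hσA, hσ1⟩ := inertia_facts A σ hσ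
  have hσv : ∀ x, A.valuation (σ x) = A.valuation x := fun x => val_algEquiv_eq σ hσA x
  have hσa : (σ : Kbar →+* Kbar) (A2 : Kbar) = (A2 : Kbar) := map_intCast _ A2
  have hpQ : P.p • ptCast hW T = 0 := by rw [← map_nsmul, hT, _root_.map_zero]
  have key := hnode.unipotent (σ : Kbar →+* Kbar) (fun x => hσv x) (fun x hx => hσ1 x hx) hσa
    (tauOf hW σ) (tauOf_some hW σ) (frey_val_p P A h2A) (ptCast hW T) hpQ
  rw [← ptCast_smul, ← map_sub, ← ptCast_smul] at key
  exact (ptCast hW).injective key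

/-- **(D2)** The Frey curve has no nontrivial Galois-fixed point killed by `p`. -/
theorem frey_no_rational_torsion (T : ((P.freyCurve : Affine ℚ)⁄Kbar).Point) (hT : P.p • T = 0)
    (hfix : ∀ σ : Kbar ≃ₐ[ℚ] Kbar, σ • T = T) : T = 0 := by
  obtain ⟨A, -, hA, -⟩ := Fermat.Agent.Helper5.exists_isFrobeniusAt 2 Nat.prime_two
  have h2A' : A.valuation ((2 : ℕ) : Kbar) < 1 := hA
  have h2A : A.valuation (2 : Kbar) < 1 := by simpa using h2A'
  obtain ⟨A2, hA2⟩ := frey_a2_int P
  obtain ⟨A4, M, c, hA4, hM, hpM, hc, hA4'⟩ := frey_a4_int P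
  obtain ⟨r, hnode⟩ := frey_node2Data (A2 := A2) A h2A hM hc hA4'
  have hW := frey_baseChange P hA2 hA4
  have hpQ : P.p • ptCast hW T = 0 := by rw [← map_nsmul, hT, _root_.map_zero]
  have hR1 := ptRat_of_fixed hW T hfix
  have hR2 : PtRat (A2 : Kbar) (A4 : Kbar) (fun x => x ∈ Set.range (algebraMap ℚ Kbar))
      (2 • ptCast hW T) := by
    rw [← map_nsmul]
    apply ptRat_of_fixed hW
    intro σ
    have h1 : Point.map (W' := (P.freyCurve : Affine ℚ)) σ.toAlgHom T = T := hfix σ
    rw [two_nsmul]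
    change Point.map (W' := (P.freyCurve : Affine ℚ)) σ.toAlgHom (T + T) = T + T
    rw [map_add, h1]
  have hp5 := P.hp5
  have hbM : A.valuation (A4 : Kbar) = A.valuation (2 : Kbar) ^ (M : ℤ) := by
    rw [hA4', val_int_two_pow_mul A h2A hc, zpow_natCast]
  have key := hnode.rational_torsion_eq_zero (fun x => x ∈ Set.range (algebraMap ℚ Kbar))
    (π := (2 : Kbar)) two_ne_zero h2A h2A
    (by
      rintro x ⟨q, rfl⟩ hx
      have hq : q ≠ 0 := by
        rintro rfl
        exact hx (_root_.map_zero _)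
      exact val_rat_eq_zpow A h2A q hq)
    (by
      rintro x ⟨q, rfl⟩ hx
      exact val_rat_sub_one_lt A h2A q hx)
    hbM P.pp (by omega) (by omega) hpM (frey_val_p P A h2A) (ptCast hW T) hpQ hR1 hR2
  have : ptCast hW T = ptCast hW 0 := by rw [key, _root_.map_zero]
  exact (ptCast hW).injective this

end frey

end Fermat.Agent.S13lib.Node2
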