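/-
S13 library, brick [D]: the two inputs `huni` (unipotence of inertia at every prime `ℓ ≠ p`) and
`hfix` (no Galois-fixed torsion) of the S13 assembly, for the Frey curve, in the torsion-subtype
shapes.
-/
import Mathlib
import Fermat.Prelude.Def_FLTPrelim_FreyPackage
import Fermat.Prelude.Def_FLTPrelim_Ramification
import Fermat.Agent.S05lib.Frey
import Fermat.Agent.S13lib.Node2.Frey2

set_option autoImplicit false

namespace Fermat.Agent.S13lib.Node2

open WeierstrassCurve WeierstrassCurve.Affine WeierstrassCurve.Affine.Point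

local notation "Kbar" => AlgebraicClosure ℚ

variable (P : FreyPackage)

/-- **`huni`**: for every prime `ℓ ≠ p`, every valuation subring `A` of `ℚ̄` over `ℓ` and every
`σ` in the inertia group of `A`, `(σ - 1)² = 0` on the `p`-torsion of the Frey curve. -/
theorem frey_huni {ℓ : ℕ} (hℓ : ℓ.Prime) (hℓp : ℓ ≠ P.p) (A : ValuationSubring Kbar)
    (hA : A.LiesOverPrime ℓ) (σ : Kbar ≃ₐ[ℚ] Kbar) (hσ : σ ∈ A.inertiaSubgroupIn ℚ)
    (x : Submodule.torsionBy ℤ ((P.freyCurve : Affine ℚ)⁄Kbar).Point P.p) :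
    σ • (σ • x - x) - (σ • x - x) = 0 := by
  have hx := (Submodule.mem_torsionBy_iff _ _).mp x.2
  rw [natCast_zsmul] at hx
  by_cases h2 : ℓ = 2
  · subst h2
    have key := frey_unipotent_at_two P A hA σ hσ x.1 hx
    apply Subtype.ext
    change σ • (σ • (x : ((P.freyCurve : Affine ℚ)⁄Kbar).Point) - x) - (σ • (x : _) - x) = 0
    rw [key, sub_self]
  · have key := Fermat.Agent.S05lib.frey_fixesTorsion P hℓ h2 hℓp A hA σ hσ x.1 hx
    have hσx : σ • x = x := Subtype.ext key
    rw [hσx, sub_self, smul_zero, sub_self]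

/-- **`hfix`**: a `p`-torsion point of the Frey curve fixed by the whole Galois group is `0`. -/
theorem frey_hfix (x : Submodule.torsionBy ℤ ((P.freyCurve : Affine ℚ)⁄Kbar).Point P.p)
    (hfix : ∀ σ : Kbar ≃ₐ[ℚ] Kbar, σ • x = x) : x = 0 := by
  have hx := (Submodule.mem_torsionBy_iff _ _).mp x.2
  rw [natCast_zsmul] at hx
  apply Subtype.ext
  exact frey_no_rational_torsion P x.1 hx (fun σ => congrArg Subtype.val (hfix σ))

end Fermat.Agent.S13lib.Node2
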