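/-
S13 library, brick [D] (residue characteristic 2): points of `y² + x y = x³ + a x² + b x`
near the node (`v b < 1`, tangent slopes `r` and `-1 - r` distinct in the residue field):
the component function and its additivity up to powers of `v b ^ 2`.
This is the analogue of `Fermat.Agent.S05lib.Node` which needs `v 2 = 1`.
-/
import Mathlib
import Fermat.Agent.S05lib.Node
import Fermat.Agent.S13lib.Node2.Curve

set_option autoImplicit false
set_option linter.unusedSectionVars false

namespace Fermat.Agent.S13lib.Node2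

open WeierstrassCurve WeierstrassCurve.Affine
open Fermat.Agent.S05lib (Cong)

section node

variable {K : Type*} [Field K] [DecidableEq K] {Γ₀ : Type*} [LinearOrderedCommGroupWithZero Γ₀]
  (v : Valuation K Γ₀) (a b r : K)

/-- The standing hypotheses for the analysis near the node: `r` and `-1 - r` are the slopes of
the two tangents at the node `(0, 0)` of the reduction. -/
structure Node2Data : Prop where
  hb : v b < 1
  hb0 : b ≠ 0
  hr : r ^ 2 + r = a
  hr1 : v r ≤ 1
  hs : v (2 * r + 1) = 1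

variable {v a b r}

namespace Node2Data

variable (h : Node2Data v a b r)
include h

lemma va : v a ≤ 1 := by
  rw [← h.hr]
  apply Valuation.map_add_le _ _ h.hr1
  rw [map_pow]
  exact pow_le_one₀ zero_le h.hr1

lemma v1r : v (1 + r) ≤ 1 := Valuation.map_add_le _ (by rw [map_one]) h.hr1

lemma vb_pos : 0 < v b := zero_lt_iff.mpr ((Valuation.ne_zero_iff v).mpr h.hb0)

lemma vs (x : K) : v ((2 * r + 1) * x) = v x := by
  rw [map_mul, h.hs, one_mul]

/-- Factorisation `(y - r x)(y + (1 + r) x) = x (x² + b)` on the curve. -/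
lemma factor {x y : K} (hxy : y ^ 2 + x * y = x ^ 3 + a * x ^ 2 + b * x) :
    (y - r * x) * (y + (1 + r) * x) = x * (x ^ 2 + b) := by
  have := h.hr
  linear_combination hxy - x ^ 2 * this

/-- Near the node (`v b < v x < 1`), the product of the two branch functions is small. -/
lemma near_mul_lt {x y : K} (hxy : y ^ 2 + x * y = x ^ 3 + a * x ^ 2 + b * x) (hx1 : v x < 1)
    (hxb : v b < v x) : v ((y - r * x) * (y + (1 + r) * x)) < v x * v x := by
  rw [h.factor hxy, map_mul]
  have hx0 : 0 < v x := lt_of_le_of_lt zero_le hxb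
  have : v (x ^ 2 + b) < v x := by
    apply Valuation.map_add_lt _ _ hxb
    rw [map_pow, pow_two]
    calc v x * v x < v x * 1 := (mul_lt_mul_iff_right₀ hx0).mpr hx1
      _ = v x := mul_one _
  exact (mul_lt_mul_iff_right₀ hx0).mpr this

lemma near_plus_or_minus {x y : K} (hxy : y ^ 2 + x * y = x ^ 3 + a * x ^ 2 + b * x)
    (hx1 : v x < 1) (hxb : v b < v x) : v (y - r * x) < v x ∨ v (y + (1 + r) * x) < v x := by
  by_contra hcon
  push Not at hcon
  have := h.near_mul_lt hxy hx1 hxb
  rw [map_mul] at this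
  exact absurd this (not_lt.mpr (mul_le_mul' hcon.1 hcon.2))

lemma not_plus_and_minus {x y : K} (hp : v (y - r * x) < v x) (hm : v (y + (1 + r) * x) < v x) :
    False := by
  have : v ((y + (1 + r) * x) - (y - r * x)) < v x := Valuation.map_sub_lt _ hm hp
  have h2 : (y + (1 + r) * x) - (y - r * x) = (2 * r + 1) * x := by ring
  rw [h2, h.vs] at this
  exact lt_irrefl _ this

/-- On the plus branch, `v (y + (1 + r) x) = v x`. -/
lemma v_plus_other {x y : K} (hp : v (y - r * x) < v x) : v (y + (1 + r) * x) = v x := by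
  have h2 : y + (1 + r) * x = (y - r * x) + (2 * r + 1) * x := by ring
  rw [h2, Valuation.map_add_eq_of_lt_right _ (by rwa [h.vs]), h.vs]

/-- On the minus branch, `v (y - r x) = v x`. -/
lemma v_minus_other {x y : K} (hm : v (y + (1 + r) * x) < v x) : v (y - r * x) = v x := by
  have h2 : y - r * x = (y + (1 + r) * x) - (2 * r + 1) * x := by ring
  rw [h2, Valuation.map_sub_eq_of_lt_right _ (by rwa [h.vs]), h.vs]

end Node2Data

/-! ### The component function -/

variable (v a b r) in
/-- The component function on points of `y² + x y = x³ + a x² + b x` (a lift to `Γ₀` of the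
class in `Γ₀ˣ / ⟨v b ^ 2⟩`): `1` on points with nonsingular reduction, `v b` on the far
component (`v x ≤ v b`), `v x` on the plus branch near the node, `(v x)⁻¹` on the minus
branch. -/
noncomputable def comp : (nodeW a b).toAffine.Point → Γ₀
  | .zero => 1
  | .some x y _ => if 1 ≤ v x then 1 else if v x ≤ v b then v b
      else if v (y - r * x) < v x then v x else (v x)⁻¹

/-! ### Types of points -/

variable (v a b) in
/-- Points with nonsingular reduction. -/
def IsE0 : (nodeW a b).toAffine.Point → Prop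
  | .zero => True
  | .some x _ _ => 1 ≤ v x

variable (v a b) in
/-- Points on the far component. -/
def IsFar : (nodeW a b).toAffine.Point → Prop
  | .zero => False
  | .some x _ _ => v x ≤ v b

variable (v a b r) in
/-- Points near the node on the plus branch. -/
def IsPlus : (nodeW a b).toAffine.Point → Prop
  | .zero => False
  | .some x y _ => v b < v x ∧ v x < 1 ∧ v (y - r * x) < v x

variable (v a b r) in
/-- Points near the node on the minus branch. -/
def IsMinus : (nodeW a b).toAffine.Point → Prop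
  | .zero => False
  | .some x y _ => v b < v x ∧ v x < 1 ∧ v (y + (1 + r) * x) < v x

namespace Node2Data

variable (h : Node2Data v a b r)
include h

lemma classify (P : (nodeW a b).toAffine.Point) :
    IsE0 v a b P ∨ IsFar v a b P ∨ IsPlus v a b r P ∨ IsMinus v a b r P := by
  rcases P with _ | ⟨x, y, hP⟩
  · exact Or.inl trivial
  · by_cases h1 : 1 ≤ v x
    · exact Or.inl h1
    · by_cases h2 : v x ≤ v b
      · exact Or.inr (Or.inl h2)
      · push Not at h1 h2
        have heq := (nd_equation_iff a b x y).mp hP.1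
        rcases h.near_plus_or_minus heq h1 h2 with hp | hm
        · exact Or.inr (Or.inr (Or.inl ⟨h2, h1, hp⟩))
        · exact Or.inr (Or.inr (Or.inr ⟨h2, h1, hm⟩))

lemma comp_of_E0 {P : (nodeW a b).toAffine.Point} (hP : IsE0 v a b P) : comp v a b r P = 1 := by
  rcases P with _ | ⟨x, y, hP'⟩
  · rfl
  · simp only [comp]
    have hP2 : 1 ≤ v x := hP
    rw [if_pos hP2]

lemma comp_of_far {P : (nodeW a b).toAffine.Point} (hP : IsFar v a b P) :
    comp v a b r P = v b := by
  rcases P with _ | ⟨x, y, hP'⟩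
  · exact absurd hP id
  · simp only [comp]
    have hP2 : v x ≤ v b := hP
    rw [if_neg (not_le.mpr (lt_of_le_of_lt hP2 h.hb)), if_pos hP2]

lemma comp_of_plus {x y : K} {hP' : (nodeW a b).toAffine.Nonsingular x y}
    (hP : IsPlus v a b r (.some x y hP')) : comp v a b r (.some x y hP') = v x := by
  obtain ⟨h1, h2, h3⟩ := hP
  simp only [comp]
  rw [if_neg (not_le.mpr h2), if_neg (not_le.mpr h1), if_pos h3]

lemma comp_of_minus {x y : K} {hP' : (nodeW a b).toAffine.Nonsingular x y}
    (hP : IsMinus v a b r (.some x y hP')) : comp v a b r (.some x y hP') = (v x)⁻¹ := by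
  obtain ⟨h1, h2, h3⟩ := hP
  simp only [comp]
  rw [if_neg (not_le.mpr h2), if_neg (not_le.mpr h1),
    if_neg (fun hp => h.not_plus_and_minus hp h3)]

/-- The component function never vanishes. -/
lemma comp_ne_zero (P : (nodeW a b).toAffine.Point) : comp v a b r P ≠ 0 := by
  rcases h.classify P with hc | hc | hc | hc
  · rw [h.comp_of_E0 hc]; exact one_ne_zero
  · rw [h.comp_of_far hc]; exact h.vb_pos.ne'
  · rcases P with _ | ⟨x, y, hP⟩
    · exact absurd hc id
    · rw [h.comp_of_plus hc]
      exact (lt_trans h.vb_pos hc.1).ne'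
  · rcases P with _ | ⟨x, y, hP⟩
    · exact absurd hc id
    · rw [h.comp_of_minus hc]
      exact inv_ne_zero (lt_trans h.vb_pos hc.1).ne'

end Node2Data

/-! ### Translation by the 2-torsion point `T = (0, 0)` -/

variable (a b) in
lemma nonsingular_T (hb0 : b ≠ 0) : (nodeW a b).toAffine.Nonsingular 0 0 := by
  rw [nd_nonsingular_iff]
  refine ⟨by ring, Or.inl ?_⟩
  simpa using hb0.symm

variable (a b) in
/-- The 2-torsion point `(0, 0)`. -/
noncomputable def Tpt (hb0 : b ≠ 0) : (nodeW a b).toAffine.Point :=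
  .some 0 0 (nonsingular_T a b hb0)

lemma Tpt_add_self (hb0 : b ≠ 0) : Tpt a b hb0 + Tpt a b hb0 = 0 :=
  Point.add_of_Y_eq rfl (by simp)

lemma add_Tpt (hb0 : b ≠ 0) {x y : K} (hP : (nodeW a b).toAffine.Nonsingular x y) (hx : x ≠ 0) :
    ∃ (x₃ y₃ : K) (h₃ : (nodeW a b).toAffine.Nonsingular x₃ y₃),
      Point.some x y hP + Tpt a b hb0 = Point.some x₃ y₃ h₃ ∧ x * x₃ = b ∧
        x * y₃ = -((y + x) * x₃) := by
  have hxy : ¬(x = 0 ∧ y = (nodeW a b).toAffine.negY 0 0) := fun hh => hx hh.1
  obtain ⟨ℓ, ν, x₃, y₃, h₃, hadd, hy₁, hy₂, hy₃, hV1, -, -⟩ :=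
    nd_add_some a b hP (nonsingular_T a b hb0) hxy
  have hν : ν = 0 := by linear_combination -hy₂
  subst hν
  have heq := (nd_equation_iff a b x y).mp hP.1
  refine ⟨x₃, y₃, h₃, hadd, ?_, ?_⟩
  · apply mul_left_cancel₀ hx
    have hx₃ : x₃ = ℓ ^ 2 + ℓ - a - x := by linear_combination hV1
    rw [hx₃]
    have hy : y = ℓ * x := by linear_combination hy₁
    rw [hy] at heq
    linear_combination heq
  · rw [hy₃, hy₁]; ring

namespace Node2Data

variable (h : Node2Data v a b r)
include h

lemma eq_Tpt_of_x_eq_zero {x y : K} (hP : (nodeW a b).toAffine.Nonsingular x y) (hx : x = 0) :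
    Point.some x y hP = Tpt a b h.hb0 := by
  subst hx
  have heq := (nd_equation_iff a b 0 y).mp hP.1
  have hy : y = 0 := by
    have : y ^ 2 = 0 := by linear_combination heq
    exact pow_eq_zero_iff (two_ne_zero) |>.mp this
  subst hy
  rfl

/-- Behaviour of the types under translation by `T`, together with the valuation of the new
`x`-coordinate. -/
lemma add_T_some {x y : K} (hP : (nodeW a b).toAffine.Nonsingular x y) (hx : x ≠ 0) :
    ∃ (x₃ y₃ : K) (h₃ : (nodeW a b).toAffine.Nonsingular x₃ y₃),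
      Point.some x y hP + Tpt a b h.hb0 = Point.some x₃ y₃ h₃ ∧ v x * v x₃ = v b ∧
      (IsE0 v a b (.some x y hP) → IsFar v a b (.some x₃ y₃ h₃)) ∧
      (IsFar v a b (.some x y hP) → IsE0 v a b (.some x₃ y₃ h₃)) ∧
      (IsPlus v a b r (.some x y hP) → IsMinus v a b r (.some x₃ y₃ h₃)) ∧
      (IsMinus v a b r (.some x y hP) → IsPlus v a b r (.some x₃ y₃ h₃)) := by
  obtain ⟨x₃, y₃, h₃, hadd, hx₃, hy₃⟩ := add_Tpt h.hb0 hP hx
  have hvx : v x * v x₃ = v b := by rw [← map_mul, hx₃]
  have hx0 : 0 < v x := zero_lt_iff.mpr ((Valuation.ne_zero_iff v).mpr hx)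
  have hx₃0 : x₃ ≠ 0 := by
    rintro rfl
    exact h.hb0 (by rw [← hx₃, mul_zero])
  have hx₃pos : 0 < v x₃ := zero_lt_iff.mpr ((Valuation.ne_zero_iff v).mpr hx₃0)
  have hplus : x * (y₃ + (1 + r) * x₃) = -(x₃ * (y - r * x)) := by linear_combination hy₃
  have hminus : x * (y₃ - r * x₃) = -(x₃ * (y + (1 + r) * x)) := by linear_combination hy₃
  have near : v b < v x → v x < 1 → v b < v x₃ ∧ v x₃ < 1 := by
    intro h1 h2
    constructor
    · calc v b = v x * v x₃ := hvx.symm
        _ < 1 * v x₃ := (mul_lt_mul_iff_left₀ hx₃pos).mpr h2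
        _ = v x₃ := one_mul _
    · apply (mul_lt_mul_iff_right₀ hx0).mp
      rw [hvx, mul_one]
      exact h1
  refine ⟨x₃, y₃, h₃, hadd, hvx, ?_, ?_, ?_, ?_⟩
  · intro hE
    have hE' : 1 ≤ v x := hE
    show v x₃ ≤ v b
    calc v x₃ = 1 * v x₃ := (one_mul _).symm
      _ ≤ v x * v x₃ := mul_le_mul_left hE' _
      _ = v b := hvx
  · intro hF
    have hF' : v x ≤ v b := hF
    show 1 ≤ v x₃
    apply (mul_le_mul_iff_right₀ hx0).mp
    rw [hvx, mul_one]
    exact hF'
  · rintro ⟨h1, h2, h3⟩
    obtain ⟨n1, n2⟩ := near h1 h2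
    refine ⟨n1, n2, ?_⟩
    apply (mul_lt_mul_iff_right₀ hx0).mp
    rw [← map_mul, hplus, Valuation.map_neg, map_mul, mul_comm (v x)]
    exact (mul_lt_mul_iff_right₀ hx₃pos).mpr h3
  · rintro ⟨h1, h2, h3⟩
    obtain ⟨n1, n2⟩ := near h1 h2
    refine ⟨n1, n2, ?_⟩
    apply (mul_lt_mul_iff_right₀ hx0).mp
    rw [← map_mul, hminus, Valuation.map_neg, map_mul, mul_comm (v x)]
    exact (mul_lt_mul_iff_right₀ hx₃pos).mpr h3

end Node2Data

namespace Node2Data

variable (h : Node2Data v a b r)
include h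

lemma isFar_Tpt : IsFar v a b (Tpt a b h.hb0) := by
  show v 0 ≤ v b
  rw [map_zero]; exact zero_le

lemma comp_add_T (P : (nodeW a b).toAffine.Point) :
    Cong v b (comp v a b r (P + Tpt a b h.hb0)) (comp v a b r P * v b) := by
  have hb0 := h.hb0
  have hvb0 : v b ≠ 0 := (Valuation.ne_zero_iff v).mpr hb0
  rcases P with _ | ⟨x, y, hP⟩
  · change Cong v b (comp v a b r (0 + Tpt a b h.hb0)) (comp v a b r 0 * v b)
    rw [zero_add, h.comp_of_far h.isFar_Tpt, h.comp_of_E0 (P := 0) trivial, one_mul]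
    exact Cong.refl _
  · by_cases hx : x = 0
    · rw [h.eq_Tpt_of_x_eq_zero hP hx, Tpt_add_self, h.comp_of_far h.isFar_Tpt,
        h.comp_of_E0 (P := 0) trivial]
      exact Cong.one_sq hb0
    · obtain ⟨x₃, y₃, h₃, hadd, hvx, hE, hF, hPl, hMi⟩ := h.add_T_some hP hx
      rw [hadd]
      have hx0 : v x ≠ 0 := (Valuation.ne_zero_iff v).mpr hx
      rcases h.classify (.some x y hP) with hc | hc | hc | hc
      · rw [h.comp_of_far (hE hc), h.comp_of_E0 hc, one_mul]
        exact Cong.refl _
      · rw [h.comp_of_E0 (hF hc), h.comp_of_far hc]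
        exact Cong.one_sq hb0
      · rw [h.comp_of_minus (hPl hc), h.comp_of_plus hc]
        refine ⟨-1, ?_⟩
        rw [← hvx]
        have hx₃0 : v x₃ ≠ 0 := right_ne_zero_of_mul (hvx ▸ hvb0)
        simp only [mul_neg, mul_one, zpow_neg]
        field_simp
      · rw [h.comp_of_plus (hMi hc), h.comp_of_minus hc]
        refine ⟨0, ?_⟩
        rw [← hvx]
        simp only [mul_zero, zpow_zero, mul_one]
        field_simp

/-- Every point is, up to translation by `T`, in `E₀` or on the plus branch. -/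
lemma good_or_good_add_T (P : (nodeW a b).toAffine.Point) :
    (IsE0 v a b P ∨ IsPlus v a b r P) ∨
      (IsE0 v a b (P + Tpt a b h.hb0) ∨ IsPlus v a b r (P + Tpt a b h.hb0)) := by
  rcases h.classify P with hc | hc | hc | hc
  · exact Or.inl (Or.inl hc)
  · right; left
    rcases P with _ | ⟨x, y, hP⟩
    · exact absurd hc id
    · by_cases hx : x = 0
      · rw [h.eq_Tpt_of_x_eq_zero hP hx, Tpt_add_self]; trivial
      · obtain ⟨x₃, y₃, h₃, hadd, hvx, hE, hF, hPl, hMi⟩ := h.add_T_some hP hx
        rw [hadd]; exact hF hc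
  · exact Or.inl (Or.inr hc)
  · right; right
    rcases P with _ | ⟨x, y, hP⟩
    · exact absurd hc id
    · have hx : x ≠ 0 := by
        rintro rfl
        obtain ⟨h1, -, -⟩ := hc
        rw [map_zero] at h1
        exact not_lt.mpr zero_le h1
      obtain ⟨x₃, y₃, h₃, hadd, hvx, hE, hF, hPl, hMi⟩ := h.add_T_some hP hx
      rw [hadd]; exact hMi hc

end Node2Data

end node

end Fermat.Agent.S13lib.Node2
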