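/-
S13 library, brick [D] (residue characteristic 2): valuation estimates for the chord-tangent
law on `y² + x y = x³ + a x² + b x` and additivity of the component function.
-/
import Mathlib
import Fermat.Agent.S13lib.Node2.Basic

set_option autoImplicit false
set_option linter.unusedSectionVars false

namespace Fermat.Agent.S13lib.Node2

open WeierstrassCurve WeierstrassCurve.Affine
open Fermat.Agent.S05lib (Cong)

section node

variable {K : Type*} [Field K] [DecidableEq K] {Γ₀ : Type*} [LinearOrderedCommGroupWithZero Γ₀]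
  {v : Valuation K Γ₀} {a b r : K}

/-! ### Valuation estimates for the chord-tangent law -/

namespace Node2Data

variable (h : Node2Data v a b r)
include h

lemma v_rhs_le {x : K} (hx : 1 ≤ v x) : v (x ^ 3 + a * x ^ 2 + b * x) ≤ v x ^ 3 := by
  apply Valuation.map_add_le
  · apply Valuation.map_add_le
    · rw [map_pow]
    · rw [map_mul, map_pow]
      calc v a * v x ^ 2 ≤ 1 * v x ^ 2 := mul_le_mul_left h.va _
        _ = v x ^ 2 := one_mul _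
        _ ≤ v x ^ 3 := pow_le_pow_right₀ hx (by norm_num)
  · rw [map_mul]
    calc v b * v x ≤ 1 * v x := mul_le_mul_left h.hb.le _
      _ = v x ^ 1 := by rw [one_mul, pow_one]
      _ ≤ v x ^ 3 := pow_le_pow_right₀ hx (by norm_num)

lemma v_sq_add_b {x : K} (hx : 1 ≤ v x) : v (x ^ 2 + b) = v x ^ 2 := by
  have : v b < v (x ^ 2) := by
    rw [map_pow]
    exact lt_of_lt_of_le h.hb (one_le_pow₀ hx)
  rw [Valuation.map_add_eq_of_lt_left _ this, map_pow]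

/-- For a point with `1 ≤ v x`, both branch functions have the same valuation,
with square `v x ^ 3`. -/
lemma v_branch_sq_of_E0 {x y : K} (hxy : y ^ 2 + x * y = x ^ 3 + a * x ^ 2 + b * x)
    (hx : 1 ≤ v x) :
    v (y + (1 + r) * x) ^ 2 = v x ^ 3 ∧ v (y - r * x) ^ 2 = v x ^ 3 := by
  have hx0 : 0 < v x := lt_of_lt_of_le zero_lt_one hx
  have hprod : v (y - r * x) * v (y + (1 + r) * x) = v x ^ 3 := by
    rw [← map_mul, h.factor hxy, map_mul, h.v_sq_add_b hx]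
    rw [pow_succ' (v x) 2]
  have heq : v (y + (1 + r) * x) = v (y - r * x) := by
    by_contra hne
    have hmax : v ((y + (1 + r) * x) + (-(y - r * x))) =
        max (v (y + (1 + r) * x)) (v (-(y - r * x))) :=
      Valuation.map_add_of_distinct_val _ (by rwa [Valuation.map_neg])
    have h2 : (y + (1 + r) * x) + (-(y - r * x)) = (2 * r + 1) * x := by ring
    rw [h2, h.vs, Valuation.map_neg] at hmax
    rcases le_total (v (y + (1 + r) * x)) (v (y - r * x)) with hle | hle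
    · rw [max_eq_right hle] at hmax
      rw [← hmax] at hprod
      have : v (y + (1 + r) * x) = v x ^ 2 := by
        apply (mul_right_inj' hx0.ne').mp
        rw [hprod, pow_succ' (v x) 2]
      have h3 : v x ^ 2 ≤ v x := by rw [← this, hmax]; exact hle
      have h4 : v x ≤ v x ^ 2 := by
        calc v x = v x ^ 1 := (pow_one _).symm
          _ ≤ v x ^ 2 := pow_le_pow_right₀ hx (by norm_num)
      exact hne (by rw [this, ← hmax]; exact le_antisymm h3 h4)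
    · rw [max_eq_left hle] at hmax
      rw [← hmax, mul_comm] at hprod
      have : v (y - r * x) = v x ^ 2 := by
        apply (mul_right_inj' hx0.ne').mp
        rw [hprod, pow_succ' (v x) 2]
      have h3 : v x ^ 2 ≤ v x := by rw [← this, hmax]; exact hle
      have h4 : v x ≤ v x ^ 2 := by
        calc v x = v x ^ 1 := (pow_one _).symm
          _ ≤ v x ^ 2 := pow_le_pow_right₀ hx (by norm_num)
      exact hne (by rw [this, ← hmax]; exact (le_antisymm h3 h4).symm)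
  constructor
  · rw [pow_two, ← hprod, heq]
  · rw [pow_two, ← hprod, heq]

/-- Both summands in `E₀`: the sum is in `E₀`. -/
lemma EE_estimate {x₁ y₁ x₂ y₂ x₃ ν : K}
    (e₁ : y₁ ^ 2 + x₁ * y₁ = x₁ ^ 3 + a * x₁ ^ 2 + b * x₁)
    (e₂ : y₂ ^ 2 + x₂ * y₂ = x₂ ^ 3 + a * x₂ ^ 2 + b * x₂) (hx₁ : 1 ≤ v x₁) (hx₂ : 1 ≤ v x₂)
    (hV3 : x₁ * x₂ * x₃ = ν ^ 2)
    (hR12 : ν * (y₁ * x₂ + y₂ * x₁ + x₁ * x₂) = x₁ * x₂ * (b - x₁ * x₂)) : 1 ≤ v x₃ := by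
  set P := v x₁ * v x₂ with hP
  have hP1 : 1 ≤ P := one_le_mul_of_one_le_of_one_le hx₁ hx₂
  have hP0 : 0 < P := lt_of_lt_of_le zero_lt_one hP1
  have h1 : v (b - x₁ * x₂) = P := by
    rw [Valuation.map_sub_eq_of_lt_right, map_mul]
    rw [map_mul]; exact lt_of_lt_of_le h.hb hP1
  have h2 : v ν * v (y₁ * x₂ + y₂ * x₁ + x₁ * x₂) = P * P := by
    rw [← map_mul, hR12, map_mul, map_mul, h1]
  have hs_eq : y₁ * x₂ + y₂ * x₁ + x₁ * x₂ =
      x₂ * (y₁ + (1 + r) * x₁) + x₁ * (y₂ - r * x₂) := by ring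
  have hA : v (x₂ * (y₁ + (1 + r) * x₁)) ^ 2 ≤ P ^ 3 := by
    rw [map_mul, mul_pow, (h.v_branch_sq_of_E0 e₁ hx₁).1, hP, mul_pow, mul_comm]
    exact mul_le_mul' le_rfl (pow_le_pow_right₀ hx₂ (by norm_num))
  have hB : v (x₁ * (y₂ - r * x₂)) ^ 2 ≤ P ^ 3 := by
    rw [map_mul, mul_pow, (h.v_branch_sq_of_E0 e₂ hx₂).2, hP, mul_pow]
    exact mul_le_mul' (pow_le_pow_right₀ hx₁ (by norm_num)) le_rfl
  have h3 : v (y₁ * x₂ + y₂ * x₁ + x₁ * x₂) ^ 2 ≤ P ^ 3 := by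
    rw [hs_eq]
    rcases le_total (v (x₂ * (y₁ + (1 + r) * x₁))) (v (x₁ * (y₂ - r * x₂))) with hle | hle
    · exact le_trans (pow_le_pow_left₀ zero_le (Valuation.map_add_le _ hle le_rfl) 2) hB
    · exact le_trans (pow_le_pow_left₀ zero_le (Valuation.map_add_le _ le_rfl hle) 2) hA
  have h4 : P * v x₃ = v ν ^ 2 := by
    rw [← map_pow, ← hV3, map_mul, map_mul]
  have hs0 : 0 < v (y₁ * x₂ + y₂ * x₁ + x₁ * x₂) := by
    rw [zero_lt_iff]
    intro h0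
    rw [h0, mul_zero] at h2
    exact (mul_pos hP0 hP0).ne' h2.symm
  have h5 : v x₃ * v (y₁ * x₂ + y₂ * x₁ + x₁ * x₂) ^ 2 = P ^ 3 := by
    apply (mul_right_inj' hP0.ne').mp
    rw [← mul_assoc, h4, ← mul_pow, h2]
    rw [pow_succ' P 2, pow_two, pow_two]
    simp only [mul_assoc]
  by_contra hlt
  push Not at hlt
  have : v x₃ * v (y₁ * x₂ + y₂ * x₁ + x₁ * x₂) ^ 2 < P ^ 3 := by
    calc v x₃ * v (y₁ * x₂ + y₂ * x₁ + x₁ * x₂) ^ 2
        < 1 * v (y₁ * x₂ + y₂ * x₁ + x₁ * x₂) ^ 2 :=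
          (mul_lt_mul_iff_left₀ (pow_pos hs0 2)).mpr hlt
      _ = v (y₁ * x₂ + y₂ * x₁ + x₁ * x₂) ^ 2 := one_mul _
      _ ≤ P ^ 3 := h3
  exact this.ne h5

/-- First summand in `E₀` (affine), second summand on the plus branch: the sum is on the
plus branch with the same `v x` as the second summand. -/
lemma EP_estimate {x₁ y₁ x₂ y₂ x₃ y₃ ν : K}
    (e₁ : y₁ ^ 2 + x₁ * y₁ = x₁ ^ 3 + a * x₁ ^ 2 + b * x₁)
    (hx₁ : 1 ≤ v x₁) (hb₂ : v b < v x₂) (h1₂ : v x₂ < 1) (hp₂ : v (y₂ - r * x₂) < v x₂)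
    (hV3 : x₁ * x₂ * x₃ = ν ^ 2)
    (hR12 : ν * (y₁ * x₂ + y₂ * x₁ + x₁ * x₂) = x₁ * x₂ * (b - x₁ * x₂))
    (hR23 : ν * (y₃ * x₂ - y₂ * x₃) = x₂ * x₃ * (x₂ * x₃ - b)) :
    v x₃ = v x₂ ∧ v (y₃ - r * x₃) < v x₃ := by
  have hx₁0 : 0 < v x₁ := lt_of_lt_of_le zero_lt_one hx₁
  have hx₂0 : 0 < v x₂ := lt_of_le_of_lt zero_le hb₂
  obtain ⟨hbr, -⟩ := h.v_branch_sq_of_E0 e₁ hx₁
  have hs_eq : y₁ * x₂ + y₂ * x₁ + x₁ * x₂ =
      x₂ * (y₁ + (1 + r) * x₁) + x₁ * (y₂ - r * x₂) := by ring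
  have hsA : v (x₂ * (y₁ + (1 + r) * x₁)) ^ 2 = v x₂ ^ 2 * v x₁ ^ 3 := by
    rw [map_mul, mul_pow, hbr]
  have hsB : v (x₁ * (y₂ - r * x₂)) < v (x₂ * (y₁ + (1 + r) * x₁)) := by
    apply lt_of_pow_lt_pow_left₀ 2 zero_le
    rw [hsA, map_mul, mul_pow]
    calc v x₁ ^ 2 * v (y₂ - r * x₂) ^ 2 < v x₁ ^ 2 * v x₂ ^ 2 :=
          (mul_lt_mul_iff_right₀ (pow_pos hx₁0 2)).mpr
            (pow_lt_pow_left₀ hp₂ zero_le (by norm_num))
      _ = v x₂ ^ 2 * v x₁ ^ 2 := mul_comm _ _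
      _ ≤ v x₂ ^ 2 * v x₁ ^ 3 :=
          mul_le_mul_right (pow_le_pow_right₀ hx₁ (by norm_num)) _
  have hs2 : v (y₁ * x₂ + y₂ * x₁ + x₁ * x₂) ^ 2 = v x₂ ^ 2 * v x₁ ^ 3 := by
    rw [hs_eq, Valuation.map_add_eq_of_lt_left _ hsB, hsA]
  have h1 : v (b - x₁ * x₂) = v x₁ * v x₂ := by
    rw [Valuation.map_sub_eq_of_lt_right, map_mul]
    rw [map_mul]
    calc v b < v x₂ := hb₂
      _ = 1 * v x₂ := (one_mul _).symm
      _ ≤ v x₁ * v x₂ := mul_le_mul_left hx₁ _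
  have h2 : v ν * v (y₁ * x₂ + y₂ * x₁ + x₁ * x₂) = (v x₁ * v x₂) ^ 2 := by
    rw [← map_mul, hR12, map_mul, map_mul, h1, pow_two]
  have hs0 : v (y₁ * x₂ + y₂ * x₁ + x₁ * x₂) ^ 2 ≠ 0 := by
    rw [hs2]; exact mul_ne_zero (pow_ne_zero _ hx₂0.ne') (pow_ne_zero _ hx₁0.ne')
  have h3 : v ν ^ 2 = v x₁ * v x₂ ^ 2 := by
    have : v ν ^ 2 * v (y₁ * x₂ + y₂ * x₁ + x₁ * x₂) ^ 2 =
        (v x₁ * v x₂ ^ 2) * v (y₁ * x₂ + y₂ * x₁ + x₁ * x₂) ^ 2 := by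
      rw [← mul_pow, h2, hs2]
      field_simp
    exact mul_right_cancel₀ hs0 this
  have hx₃ : v x₃ = v x₂ := by
    have e : v x₁ * v x₂ * v x₃ = v ν ^ 2 := by
      rw [← map_pow, ← hV3, map_mul, map_mul]
    have : v x₁ * v x₂ * v x₃ = v x₁ * v x₂ * v x₂ := by
      rw [e, h3]
      field_simp
    exact mul_left_cancel₀ (mul_pos hx₁0 hx₂0).ne' this
  refine ⟨hx₃, ?_⟩
  -- the branch
  have hνge : v x₂ ≤ v ν := by
    apply le_of_pow_le_pow_left₀ (n := 2) (by norm_num) zero_le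
    rw [h3]
    calc v x₂ ^ 2 = 1 * v x₂ ^ 2 := (one_mul _).symm
      _ ≤ v x₁ * v x₂ ^ 2 := mul_le_mul_left hx₁ _
  have h4 : v (x₂ * x₃ - b) < v x₂ := by
    apply Valuation.map_sub_lt _ _ hb₂
    rw [map_mul, hx₃]
    calc v x₂ * v x₂ < v x₂ * 1 := (mul_lt_mul_iff_right₀ hx₂0).mpr h1₂
      _ = v x₂ := mul_one _
  have h5 : v (y₃ * x₂ - y₂ * x₃) < v x₂ * v x₂ := by
    apply (mul_lt_mul_iff_right₀ hx₂0).mp
    calc v x₂ * v (y₃ * x₂ - y₂ * x₃) ≤ v ν * v (y₃ * x₂ - y₂ * x₃) :=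
          mul_le_mul_left hνge _
      _ = v x₂ * v x₂ * v (x₂ * x₃ - b) := by
          rw [← map_mul, hR23, map_mul, map_mul, hx₃]
      _ < v x₂ * v x₂ * v x₂ := (mul_lt_mul_iff_right₀ (mul_pos hx₂0 hx₂0)).mpr h4
      _ = v x₂ * (v x₂ * v x₂) := mul_assoc _ _ _
  have h6 : x₂ * (y₃ - r * x₃) = (y₃ * x₂ - y₂ * x₃) + x₃ * (y₂ - r * x₂) := by ring
  have h7 : v (x₂ * (y₃ - r * x₃)) < v x₂ * v x₂ := by
    rw [h6]
    apply Valuation.map_add_lt _ h5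
    rw [map_mul, hx₃]
    exact (mul_lt_mul_iff_right₀ hx₂0).mpr hp₂
  rw [map_mul] at h7
  rw [hx₃]
  exact (mul_lt_mul_iff_right₀ hx₂0).mp h7

/-- Both summands on the plus branch: `v ν = v (b - x₁ x₂)`. -/
lemma PP_common {x₁ y₁ x₂ y₂ ν : K} (hb₁ : v b < v x₁) (hp₁ : v (y₁ - r * x₁) < v x₁)
    (hb₂ : v b < v x₂) (hp₂ : v (y₂ - r * x₂) < v x₂)
    (hR12 : ν * (y₁ * x₂ + y₂ * x₁ + x₁ * x₂) = x₁ * x₂ * (b - x₁ * x₂)) :
    v ν = v (b - x₁ * x₂) := by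
  have hx₁0 : 0 < v x₁ := lt_of_le_of_lt zero_le hb₁
  have hx₂0 : 0 < v x₂ := lt_of_le_of_lt zero_le hb₂
  have hs_eq : y₁ * x₂ + y₂ * x₁ + x₁ * x₂ =
      (x₂ * (y₁ - r * x₁) + x₁ * (y₂ - r * x₂)) + (2 * r + 1) * (x₁ * x₂) := by ring
  have hlead : v ((2 * r + 1) * (x₁ * x₂)) = v x₁ * v x₂ := by rw [h.vs, map_mul]
  have hsmall : v (x₂ * (y₁ - r * x₁) + x₁ * (y₂ - r * x₂)) < v x₁ * v x₂ := by
    apply Valuation.map_add_lt
    · rw [map_mul, mul_comm]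
      exact (mul_lt_mul_iff_left₀ hx₂0).mpr hp₁
    · rw [map_mul]
      exact (mul_lt_mul_iff_right₀ hx₁0).mpr hp₂
  have hs : v (y₁ * x₂ + y₂ * x₁ + x₁ * x₂) = v x₁ * v x₂ := by
    rw [hs_eq, Valuation.map_add_eq_of_lt_right _ (by rwa [hlead]), hlead]
  have h2 : v ν * (v x₁ * v x₂) = (v x₁ * v x₂) * v (b - x₁ * x₂) := by
    rw [← hs, ← map_mul, hR12, map_mul, map_mul, hs]
  rw [mul_comm] at h2
  exact mul_left_cancel₀ (mul_pos hx₁0 hx₂0).ne' h2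

/-- Both summands on the plus branch, `v b < v x₁ * v x₂`: the sum is on the plus branch and
`v x₃ = v x₁ * v x₂`. -/
lemma PP_estimate_gt {x₁ y₁ x₂ y₂ x₃ y₃ ν : K} (hb₁ : v b < v x₁) (h1₁ : v x₁ < 1)
    (hp₁ : v (y₁ - r * x₁) < v x₁)
    (hb₂ : v b < v x₂) (h1₂ : v x₂ < 1) (hp₂ : v (y₂ - r * x₂) < v x₂)
    (hbig : v b < v x₁ * v x₂)
    (hV3 : x₁ * x₂ * x₃ = ν ^ 2)
    (hR12 : ν * (y₁ * x₂ + y₂ * x₁ + x₁ * x₂) = x₁ * x₂ * (b - x₁ * x₂))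
    (hR23 : ν * (y₃ * x₂ - y₂ * x₃) = x₂ * x₃ * (x₂ * x₃ - b)) :
    v x₃ = v x₁ * v x₂ ∧ v (y₃ - r * x₃) < v x₃ := by
  have hx₁0 : 0 < v x₁ := lt_of_le_of_lt zero_le hb₁
  have hx₂0 : 0 < v x₂ := lt_of_le_of_lt zero_le hb₂
  have hν : v ν = v x₁ * v x₂ := by
    rw [h.PP_common hb₁ hp₁ hb₂ hp₂ hR12, Valuation.map_sub_eq_of_lt_right, map_mul]
    rwa [map_mul]
  have hx₃ : v x₃ = v x₁ * v x₂ := by
    have e : v x₁ * v x₂ * v x₃ = v ν ^ 2 := by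
      rw [← map_pow, ← hV3, map_mul, map_mul]
    rw [hν, pow_two] at e
    exact mul_left_cancel₀ (mul_pos hx₁0 hx₂0).ne' e
  refine ⟨hx₃, ?_⟩
  have hx₃0 : 0 < v x₃ := by rw [hx₃]; exact mul_pos hx₁0 hx₂0
  have h4 : v (x₂ * x₃ - b) < v x₁ * v x₂ := by
    apply Valuation.map_sub_lt _ _ hbig
    rw [map_mul, hx₃]
    calc v x₂ * (v x₁ * v x₂) < 1 * (v x₁ * v x₂) :=
          (mul_lt_mul_iff_left₀ (mul_pos hx₁0 hx₂0)).mpr h1₂
      _ = v x₁ * v x₂ := one_mul _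
  have h5 : v (y₃ * x₂ - y₂ * x₃) < v x₂ * v x₃ := by
    apply (mul_lt_mul_iff_right₀ (mul_pos hx₁0 hx₂0)).mp
    calc v x₁ * v x₂ * v (y₃ * x₂ - y₂ * x₃) = v x₂ * v x₃ * v (x₂ * x₃ - b) := by
          rw [← hν, ← map_mul, hR23, map_mul, map_mul]
      _ < v x₂ * v x₃ * (v x₁ * v x₂) := (mul_lt_mul_iff_right₀ (mul_pos hx₂0 hx₃0)).mpr h4
      _ = v x₁ * v x₂ * (v x₂ * v x₃) := mul_comm _ _
  have h6 : x₂ * (y₃ - r * x₃) = (y₃ * x₂ - y₂ * x₃) + x₃ * (y₂ - r * x₂) := by ring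
  have h7 : v (x₂ * (y₃ - r * x₃)) < v x₂ * v x₃ := by
    rw [h6]
    apply Valuation.map_add_lt _ h5
    rw [map_mul, mul_comm]
    exact (mul_lt_mul_iff_left₀ hx₃0).mpr hp₂
  rw [map_mul] at h7
  exact (mul_lt_mul_iff_right₀ hx₂0).mp h7

/-- Both summands on the plus branch, `v x₁ * v x₂ < v b`: the sum is on the minus branch and
`v x₃ * (v x₁ * v x₂) = v b ^ 2`. -/
lemma PP_estimate_lt {x₁ y₁ x₂ y₂ x₃ y₃ ν : K} (hb₁ : v b < v x₁)
    (hp₁ : v (y₁ - r * x₁) < v x₁)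
    (hb₂ : v b < v x₂) (hp₂ : v (y₂ - r * x₂) < v x₂)
    (hsmall : v x₁ * v x₂ < v b)
    (hV3 : x₁ * x₂ * x₃ = ν ^ 2)
    (hR12 : ν * (y₁ * x₂ + y₂ * x₁ + x₁ * x₂) = x₁ * x₂ * (b - x₁ * x₂))
    (hS23 : y₃ * x₂ + y₂ * x₃ + x₂ * x₃ = ν * (x₃ - x₂)) :
    v x₁ * v x₂ * v x₃ = v b ^ 2 ∧ v b < v x₃ ∧ v x₃ < 1 ∧ v (y₃ + (1 + r) * x₃) < v x₃ := by
  have hx₁0 : 0 < v x₁ := lt_of_le_of_lt zero_le hb₁
  have hx₂0 : 0 < v x₂ := lt_of_le_of_lt zero_le hb₂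
  have hb0 : 0 < v b := h.vb_pos
  have hν : v ν = v b := by
    rw [h.PP_common hb₁ hp₁ hb₂ hp₂ hR12, Valuation.map_sub_eq_of_lt_left]
    rwa [map_mul]
  have e : v x₁ * v x₂ * v x₃ = v b ^ 2 := by
    rw [← hν, ← map_pow, ← hV3, map_mul, map_mul]
  have hx₃b : v b < v x₃ := by
    apply (mul_lt_mul_iff_right₀ (mul_pos hx₁0 hx₂0)).mp
    rw [e, pow_two]
    exact (mul_lt_mul_iff_left₀ hb0).mpr hsmall
  have hx₃1 : v x₃ < 1 := by
    apply (mul_lt_mul_iff_right₀ (mul_pos hx₁0 hx₂0)).mp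
    rw [e, mul_one, pow_two]
    exact mul_lt_mul'' hb₁ hb₂ zero_le zero_le
  have hx₃0 : 0 < v x₃ := lt_trans hb0 hx₃b
  refine ⟨e, hx₃b, hx₃1, ?_⟩
  have h6 : x₂ * (y₃ + (1 + r) * x₃) = ν * (x₃ - x₂) - x₃ * (y₂ - r * x₂) := by
    linear_combination hS23
  have h7 : v (x₂ * (y₃ + (1 + r) * x₃)) < v x₂ * v x₃ := by
    rw [h6]
    apply Valuation.map_sub_lt
    · rw [map_mul, hν]
      have : v (x₃ - x₂) ≤ max (v x₃) (v x₂) := Valuation.map_sub _ _ _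
      rcases le_max_iff.mp this with hle | hle
      · calc v b * v (x₃ - x₂) ≤ v b * v x₃ := mul_le_mul_right hle _
          _ < v x₂ * v x₃ := (mul_lt_mul_iff_left₀ hx₃0).mpr hb₂
      · calc v b * v (x₃ - x₂) ≤ v b * v x₂ := mul_le_mul_right hle _
          _ < v x₃ * v x₂ := (mul_lt_mul_iff_left₀ hx₂0).mpr hx₃b
          _ = v x₂ * v x₃ := mul_comm _ _
    · rw [map_mul, mul_comm]
      exact (mul_lt_mul_iff_left₀ hx₃0).mpr hp₂
  rw [map_mul] at h7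
  exact (mul_lt_mul_iff_right₀ hx₂0).mp h7

/-- Both summands on the plus branch, `v x₁ * v x₂ = v b`: the sum is on the far component. -/
lemma PP_estimate_eq {x₁ y₁ x₂ y₂ x₃ ν : K} (hb₁ : v b < v x₁)
    (hp₁ : v (y₁ - r * x₁) < v x₁)
    (hb₂ : v b < v x₂) (hp₂ : v (y₂ - r * x₂) < v x₂)
    (heq : v x₁ * v x₂ = v b)
    (hV3 : x₁ * x₂ * x₃ = ν ^ 2)
    (hR12 : ν * (y₁ * x₂ + y₂ * x₁ + x₁ * x₂) = x₁ * x₂ * (b - x₁ * x₂)) :
    v x₃ ≤ v b := by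
  have hb0 : 0 < v b := h.vb_pos
  have hν : v ν ≤ v b := by
    rw [h.PP_common hb₁ hp₁ hb₂ hp₂ hR12]
    apply Valuation.map_sub_le _ le_rfl
    rw [map_mul, heq]
  have e : v b * v x₃ = v ν ^ 2 := by
    rw [← heq, ← map_pow, ← hV3, map_mul, map_mul]
  apply (mul_le_mul_iff_right₀ hb0).mp
  rw [e, pow_two]
  exact mul_le_mul' hν hν

end Node2Data

/-! ### Additivity of the component function -/

namespace Node2Data

variable (h : Node2Data v a b r)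
include h

lemma comp_zero : comp v a b r 0 = 1 := rfl

lemma comp_add_EE {P Q : (nodeW a b).toAffine.Point} (hP : IsE0 v a b P) (hQ : IsE0 v a b Q) :
    IsE0 v a b (P + Q) := by
  rcases P with _ | ⟨x₁, y₁, h₁⟩
  · change IsE0 v a b (0 + Q); rwa [zero_add]
  rcases Q with _ | ⟨x₂, y₂, h₂⟩
  · change IsE0 v a b (_ + 0); rwa [add_zero]
  by_cases hxy : x₁ = x₂ ∧ y₁ = (nodeW a b).toAffine.negY x₂ y₂
  · rw [Point.add_of_Y_eq hxy.1 hxy.2]; trivial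
  · obtain ⟨ν, x₃, y₃, h₃, hadd, hV3, hR12, -, -⟩ := nd_add_some' a b h₁ h₂ hxy
    rw [hadd]
    exact h.EE_estimate ((nd_equation_iff a b x₁ y₁).mp h₁.1)
      ((nd_equation_iff a b x₂ y₂).mp h₂.1) hP hQ hV3 hR12

lemma comp_add_EP {P Q : (nodeW a b).toAffine.Point} (hP : IsE0 v a b P)
    (hQ : IsPlus v a b r Q) :
    IsPlus v a b r (P + Q) ∧ comp v a b r (P + Q) = comp v a b r Q := by
  rcases Q with _ | ⟨x₂, y₂, h₂⟩
  · exact absurd hQ id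
  rcases P with _ | ⟨x₁, y₁, h₁⟩
  · change IsPlus v a b r (0 + _) ∧ comp v a b r (0 + _) = _
    rw [zero_add]; exact ⟨hQ, rfl⟩
  obtain ⟨hb₂, h1₂, hp₂⟩ := hQ
  have hP' : 1 ≤ v x₁ := hP
  have hxy : ¬(x₁ = x₂ ∧ y₁ = (nodeW a b).toAffine.negY x₂ y₂) := by
    rintro ⟨rfl, -⟩
    exact absurd h1₂ (not_lt.mpr hP')
  obtain ⟨ν, x₃, y₃, h₃, hadd, hV3, hR12, hR23, -⟩ := nd_add_some' a b h₁ h₂ hxy
  obtain ⟨e1, e2⟩ := h.EP_estimate ((nd_equation_iff a b x₁ y₁).mp h₁.1) hP' hb₂ h1₂ hp₂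
    hV3 hR12 hR23
  have hplus : IsPlus v a b r (.some x₃ y₃ h₃) :=
    ⟨by rw [e1]; exact hb₂, by rw [e1]; exact h1₂, e2⟩
  rw [hadd]
  refine ⟨hplus, ?_⟩
  rw [h.comp_of_plus hplus, h.comp_of_plus (x := x₂) (y := y₂) (hP' := h₂) ⟨hb₂, h1₂, hp₂⟩, e1]

lemma comp_add_PP {P Q : (nodeW a b).toAffine.Point} (hP : IsPlus v a b r P)
    (hQ : IsPlus v a b r Q) :
    Cong v b (comp v a b r (P + Q)) (comp v a b r P * comp v a b r Q) := by
  rcases P with _ | ⟨x₁, y₁, h₁⟩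
  · exact absurd hP id
  rcases Q with _ | ⟨x₂, y₂, h₂⟩
  · exact absurd hQ id
  have hP' := hP
  have hQ' := hQ
  obtain ⟨hb₁, h1₁, hp₁⟩ := hP
  obtain ⟨hb₂, h1₂, hp₂⟩ := hQ
  have hxy : ¬(x₁ = x₂ ∧ y₁ = (nodeW a b).toAffine.negY x₂ y₂) := by
    rintro ⟨rfl, hy⟩
    rw [nd_negY] at hy
    subst hy
    have : v (y₂ + (1 + r) * x₁) < v x₁ := by
      have e : y₂ + (1 + r) * x₁ = -(-y₂ - x₁ - r * x₁) := by ring
      rw [e, Valuation.map_neg]; exact hp₁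
    exact h.not_plus_and_minus hp₂ this
  obtain ⟨ν, x₃, y₃, h₃, hadd, hV3, hR12, hR23, hS23⟩ := nd_add_some' a b h₁ h₂ hxy
  rw [hadd, h.comp_of_plus hP', h.comp_of_plus hQ']
  rcases lt_trichotomy (v b) (v x₁ * v x₂) with hlt | heq | hgt
  · obtain ⟨e1, e2⟩ := h.PP_estimate_gt hb₁ h1₁ hp₁ hb₂ h1₂ hp₂ hlt hV3 hR12 hR23
    have hplus : IsPlus v a b r (.some x₃ y₃ h₃) := by
      refine ⟨by rw [e1]; exact hlt, ?_, e2⟩
      rw [e1]
      calc v x₁ * v x₂ < 1 * 1 := mul_lt_mul'' h1₁ h1₂ zero_le zero_le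
        _ = 1 := one_mul _
    rw [h.comp_of_plus hplus, e1]
    exact Cong.refl _
  · have e1 := h.PP_estimate_eq hb₁ hp₁ hb₂ hp₂ heq.symm hV3 hR12
    have hfar : IsFar v a b (.some x₃ y₃ h₃) := e1
    rw [h.comp_of_far hfar, heq]
    exact Cong.refl _
  · obtain ⟨e, e1, e2, e3⟩ := h.PP_estimate_lt hb₁ hp₁ hb₂ hp₂ hgt hV3 hR12 hS23
    have hminus : IsMinus v a b r (.some x₃ y₃ h₃) := ⟨e1, e2, e3⟩
    rw [h.comp_of_minus hminus]
    refine ⟨-1, ?_⟩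
    have hx₃0 : v x₃ ≠ 0 := (lt_trans h.vb_pos e1).ne'
    have hvb0 : v b ≠ 0 := h.vb_pos.ne'
    simp only [mul_neg, mul_one, zpow_neg]
    rw [← zpow_natCast (v b) 2] at e
    have e' : (v b ^ (2 : ℤ))⁻¹ = (v x₁ * v x₂ * v x₃)⁻¹ := by rw [e]; rfl
    rw [e']
    have hx₁0 : v x₁ ≠ 0 := (lt_trans h.vb_pos hb₁).ne'
    have hx₂0 : v x₂ ≠ 0 := (lt_trans h.vb_pos hb₂).ne'
    field_simp

/-- Additivity of the component function for summands in `E₀` or on the plus branch. -/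
lemma comp_add_good {P Q : (nodeW a b).toAffine.Point}
    (hP : IsE0 v a b P ∨ IsPlus v a b r P) (hQ : IsE0 v a b Q ∨ IsPlus v a b r Q) :
    Cong v b (comp v a b r (P + Q)) (comp v a b r P * comp v a b r Q) := by
  rcases hP with hP | hP <;> rcases hQ with hQ | hQ
  · rw [h.comp_of_E0 (h.comp_add_EE hP hQ), h.comp_of_E0 hP, h.comp_of_E0 hQ, one_mul]
    exact Cong.refl _
  · rw [(h.comp_add_EP hP hQ).2, h.comp_of_E0 hP, one_mul]
    exact Cong.refl _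
  · rw [add_comm, (h.comp_add_EP hQ hP).2, h.comp_of_E0 hQ, mul_one]
    exact Cong.refl _
  · exact h.comp_add_PP hP hQ

lemma add_T_add_T (P : (nodeW a b).toAffine.Point) :
    (P + Tpt a b h.hb0) + Tpt a b h.hb0 = P := by
  rw [add_assoc, Tpt_add_self, add_zero]

/-- **Additivity of the component function** modulo powers of `v b ^ 2`. -/
theorem comp_add (P Q : (nodeW a b).toAffine.Point) :
    Cong v b (comp v a b r (P + Q)) (comp v a b r P * comp v a b r Q) := by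
  have hb0 := h.hb0
  set T := Tpt a b h.hb0 with hT
  have key1 : ∀ P' Q' : (nodeW a b).toAffine.Point,
      (IsE0 v a b P' ∨ IsPlus v a b r P') → (IsE0 v a b Q' ∨ IsPlus v a b r Q') →
      Cong v b (comp v a b r (P' + (Q' + T))) (comp v a b r P' * comp v a b r (Q' + T)) := by
    intro P' Q' hP' hQ'
    have e1 : P' + (Q' + T) = (P' + Q') + T := (add_assoc _ _ _).symm
    rw [e1]
    refine (h.comp_add_T (P' + Q')).trans hb0 ?_
    refine (Cong.mul_right hb0 (v b) (h.comp_add_good hP' hQ')).trans hb0 ?_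
    rw [mul_assoc]
    exact Cong.mul hb0 (Cong.refl _) ((h.comp_add_T Q').symm hb0)
  have key2 : ∀ P' Q' : (nodeW a b).toAffine.Point,
      (IsE0 v a b P' ∨ IsPlus v a b r P') → (IsE0 v a b Q' ∨ IsPlus v a b r Q') →
      Cong v b (comp v a b r ((P' + T) + (Q' + T)))
        (comp v a b r (P' + T) * comp v a b r (Q' + T)) := by
    intro P' Q' hP' hQ'
    have e1 : (P' + T) + (Q' + T) = P' + Q' := by
      rw [add_add_add_comm, hT, Tpt_add_self, add_zero]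
    rw [e1]
    refine (h.comp_add_good hP' hQ').trans hb0 ?_
    have c1 := (h.comp_add_T P').symm hb0
    have c2 := (h.comp_add_T Q').symm hb0
    have c3 := Cong.mul hb0 c1 c2
    refine Cong.trans hb0 ?_ c3
    have e2 : comp v a b r P' * v b * (comp v a b r Q' * v b) =
        comp v a b r P' * comp v a b r Q' * (v b * v b) := mul_mul_mul_comm _ _ _ _
    rw [e2]
    have := Cong.mul hb0 (Cong.refl (comp v a b r P' * comp v a b r Q'))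
      (Cong.one_sq (v := v) hb0)
    rwa [mul_one] at this
  rcases h.good_or_good_add_T P with hP | hP <;> rcases h.good_or_good_add_T Q with hQ | hQ
  · exact h.comp_add_good hP hQ
  · have := key1 P (Q + T) hP hQ
    rwa [h.add_T_add_T Q] at this
  · have := key1 Q (P + T) hQ hP
    rw [h.add_T_add_T P] at this
    rwa [add_comm, mul_comm]
  · have := key2 (P + T) (Q + T) hP hQ
    rwa [h.add_T_add_T P, h.add_T_add_T Q] at this

/-- Iterated version: `comp (n • P) ≡ comp P ^ n`. -/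
theorem comp_nsmul (P : (nodeW a b).toAffine.Point) (n : ℕ) :
    Cong v b (comp v a b r (n • P)) (comp v a b r P ^ n) := by
  induction n with
  | zero => rw [zero_smul, pow_zero]; exact Cong.refl _
  | succ n ih =>
    rw [succ_nsmul, pow_succ]
    exact (h.comp_add (n • P) P).trans h.hb0 (Cong.mul_right h.hb0 _ ih)

end Node2Data

end node

end Fermat.Agent.S13lib.Node2
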