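/-
S13 library: the discriminant of the Frey curve is nonzero (so the Frey curve and its base
changes are elliptic curves), and the integer facts on the two Legendre models.
-/
import Mathlib
import Fermat.Prelude.Def_FLTPrelim_FreyPackage

set_option autoImplicit false

namespace Fermat.Agent.S13lib.Node2

open WeierstrassCurve

variable (P : FreyPackage)

lemma frey_FLT_rat : (P.a : ℚ) ^ P.p + (P.b : ℚ) ^ P.p = (P.c : ℚ) ^ P.p := by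
  exact_mod_cast congrArg (fun z : ℤ => (z : ℚ)) P.hFLT

/-- The discriminant of the Frey curve: `Δ = (a^p b^p c^p)² / 2⁸`. -/
theorem frey_Δ : P.freyCurve.Δ =
    ((P.a : ℚ) ^ P.p * (P.b : ℚ) ^ P.p * (P.c : ℚ) ^ P.p) ^ 2 / 256 := by
  have h := frey_FLT_rat P
  simp only [WeierstrassCurve.Δ, WeierstrassCurve.b₂, WeierstrassCurve.b₄, WeierstrassCurve.b₆,
    WeierstrassCurve.b₈, FreyPackage.freyCurve]
  rw [← h]
  ring

theorem frey_Δ_ne_zero : P.freyCurve.Δ ≠ 0 := by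
  rw [frey_Δ]
  have ha : (P.a : ℚ) ≠ 0 := by exact_mod_cast P.ha0
  have hb : (P.b : ℚ) ≠ 0 := by exact_mod_cast P.hb0
  have hc : (P.c : ℚ) ≠ 0 := by exact_mod_cast P.hc0
  positivity

/-- The Frey curve is an elliptic curve. -/
instance frey_isElliptic : P.freyCurve.IsElliptic :=
  ⟨isUnit_iff_ne_zero.mpr (frey_Δ_ne_zero P)⟩

/-- The discriminant of any base change of the Frey curve to a field is nonzero. -/
theorem frey_baseChange_Δ_ne_zero (K : Type*) [Field K] [Algebra ℚ K] :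
    (P.freyCurve.baseChange K).Δ ≠ 0 := by
  rw [WeierstrassCurve.baseChange, WeierstrassCurve.map_Δ]
  exact (map_ne_zero _).mpr (frey_Δ_ne_zero P)

/-! ### Integer facts for the Legendre models `legW (b^p - a^p) (-(a^p b^p))` and
`legW (a^p + c^p) (a^p c^p)` -/

lemma frey_leg_b_ne_zero : -(P.a ^ P.p * P.b ^ P.p) ≠ 0 :=
  neg_ne_zero.mpr (mul_ne_zero (pow_ne_zero _ P.ha0) (pow_ne_zero _ P.hb0))

lemma frey_leg_disc : (P.b ^ P.p - P.a ^ P.p) ^ 2 - 4 * -(P.a ^ P.p * P.b ^ P.p) =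
    (P.c ^ P.p) ^ 2 := by
  rw [← P.hFLT]; ring

lemma frey_leg_disc_ne_zero : (P.b ^ P.p - P.a ^ P.p) ^ 2 - 4 * -(P.a ^ P.p * P.b ^ P.p) ≠ 0 := by
  rw [frey_leg_disc]
  exact pow_ne_zero _ (pow_ne_zero _ P.hc0)

lemma frey_legShift_b_ne_zero : P.a ^ P.p * P.c ^ P.p ≠ 0 :=
  mul_ne_zero (pow_ne_zero _ P.ha0) (pow_ne_zero _ P.hc0)

lemma frey_legShift_disc : (P.a ^ P.p + P.c ^ P.p) ^ 2 - 4 * (P.a ^ P.p * P.c ^ P.p) =
    (P.b ^ P.p) ^ 2 := by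
  have h : P.b ^ P.p = P.c ^ P.p - P.a ^ P.p := by rw [← P.hFLT]; ring
  rw [h]; ring

lemma frey_legShift_disc_ne_zero :
    (P.a ^ P.p + P.c ^ P.p) ^ 2 - 4 * (P.a ^ P.p * P.c ^ P.p) ≠ 0 := by
  rw [frey_legShift_disc]
  exact pow_ne_zero _ (pow_ne_zero _ P.hb0)

/-- The reduction type at `p` of the first Legendre model when `p ∤ c`: good or nodal. -/
lemma frey_leg_red (hc : ¬ (P.p : ℤ) ∣ P.c) :
    (¬ (P.p : ℤ) ∣ -(P.a ^ P.p * P.b ^ P.p) ∧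
        ¬ (P.p : ℤ) ∣ (P.b ^ P.p - P.a ^ P.p) ^ 2 - 4 * -(P.a ^ P.p * P.b ^ P.p)) ∨
      (¬ (P.p : ℤ) ∣ (P.b ^ P.p - P.a ^ P.p) ∧ (P.p : ℤ) ∣ -(P.a ^ P.p * P.b ^ P.p)) := by
  have hpp : Prime (P.p : ℤ) := Nat.prime_iff_prime_int.mp P.pp
  have hp0 : P.p ≠ 0 := P.hp0
  have hpow : ∀ z : ℤ, (P.p : ℤ) ∣ z ^ P.p ↔ (P.p : ℤ) ∣ z := fun z =>
    ⟨fun h => hpp.dvd_of_dvd_pow h, fun h => dvd_pow h hp0⟩
  have hnot_ab : ¬((P.p : ℤ) ∣ P.a ∧ (P.p : ℤ) ∣ P.b) := by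
    rintro ⟨h1, h2⟩
    have := dvd_gcd h1 h2
    rw [P.hgcdab] at this
    exact hpp.not_isUnit (isUnit_of_dvd_one this)
  by_cases hab : (P.p : ℤ) ∣ P.a * P.b
  · right
    refine ⟨?_, ?_⟩
    · intro h
      rcases hpp.dvd_or_dvd hab with h1 | h1
      · have h2 : (P.p : ℤ) ∣ P.b ^ P.p := (dvd_sub_left ((hpow _).mpr h1)).mp h
        exact hnot_ab ⟨h1, (hpow _).mp h2⟩
      · have h2 : (P.p : ℤ) ∣ P.a ^ P.p := (dvd_sub_right ((hpow _).mpr h1)).mp h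
        exact hnot_ab ⟨(hpow _).mp h2, h1⟩
    · rw [dvd_neg, ← mul_pow]
      exact (hpow _).mpr hab
  · left
    have ha : ¬(P.p : ℤ) ∣ P.a := fun h => hab (dvd_mul_of_dvd_left h _)
    have hb : ¬(P.p : ℤ) ∣ P.b := fun h => hab (dvd_mul_of_dvd_right h _)
    refine ⟨?_, ?_⟩
    · rw [dvd_neg]
      intro h
      rcases hpp.dvd_or_dvd h with h1 | h1
      · exact ha ((hpow _).mp h1)
      · exact hb ((hpow _).mp h1)
    · rw [frey_leg_disc]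
      intro h
      exact hc ((hpow _).mp (hpp.dvd_of_dvd_pow h))

/-- The reduction type at `p` of the shifted Legendre model when `p ∣ c`: nodal. -/
lemma frey_legShift_red (hc : (P.p : ℤ) ∣ P.c) :
    ¬ (P.p : ℤ) ∣ (P.a ^ P.p + P.c ^ P.p) ∧ (P.p : ℤ) ∣ P.a ^ P.p * P.c ^ P.p := by
  have hpp : Prime (P.p : ℤ) := Nat.prime_iff_prime_int.mp P.pp
  have hp0 : P.p ≠ 0 := P.hp0
  have hpow : ∀ z : ℤ, (P.p : ℤ) ∣ z ^ P.p ↔ (P.p : ℤ) ∣ z := fun z =>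
    ⟨fun h => hpp.dvd_of_dvd_pow h, fun h => dvd_pow h hp0⟩
  have hnot_ac : ¬((P.p : ℤ) ∣ P.a ∧ (P.p : ℤ) ∣ P.c) := by
    rintro ⟨h1, h2⟩
    have := dvd_gcd h1 h2
    rw [P.hgcdac] at this
    exact hpp.not_isUnit (isUnit_of_dvd_one this)
  refine ⟨?_, dvd_mul_of_dvd_right ((hpow _).mpr hc) _⟩
  intro h
  have : (P.p : ℤ) ∣ P.a ^ P.p := (dvd_add_left ((hpow _).mpr hc)).mp h
  exact hnot_ac ⟨(hpow _).mp this, hc⟩

end Fermat.Agent.S13lib.Node2
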