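/-
S13 library (hedge for (G4), helper6): the local alternative at `p` for the Frey curve itself,
transported from the two Legendre models along changes of variables.
-/
import Mathlib
import Fermat.Agent.S05lib.Frey
import Fermat.Agent.S13lib.LegWP
import Fermat.Agent.S13lib.TorsionEquiv
import Fermat.Agent.S13lib.Node2.FreyDelta

set_option autoImplicit false

namespace Fermat.Agent.S13lib.Node2

open WeierstrassCurve WeierstrassCurve.Affine WeierstrassCurve.Affine.Point
open Fermat.Agent.S05lib (legW vc1 vc2 frey_vc1 legW_vc2)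

/-- The local alternative at `q` transfers along a change of variables over `ℚ`. -/
theorem local_alt_of_variableChange_eq (E E' : Affine ℚ) (C : VariableChange ℚ)
    (hE : C • E = E') {n q : ℕ}
    (h : ∀ N : Submodule (ZMod n) (Submodule.torsionBy ℤ (E'⁄Qbar).Point n),
      IsGaloisStable ℚ N → Nat.card N = n →
      ∃ A : ValuationSubring Qbar, A.LiesOverPrime q ∧
        ((∀ σ ∈ A.inertiaSubgroupIn ℚ, ∀ x ∈ N, σ • x = x) ∨
          (∀ σ ∈ A.inertiaSubgroupIn ℚ,
            ∀ x : Submodule.torsionBy ℤ (E'⁄Qbar).Point n, σ • x - x ∈ N))) :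
    ∀ N : Submodule (ZMod n) (Submodule.torsionBy ℤ (E⁄Qbar).Point n),
      IsGaloisStable ℚ N → Nat.card N = n →
      ∃ A : ValuationSubring Qbar, A.LiesOverPrime q ∧
        ((∀ σ ∈ A.inertiaSubgroupIn ℚ, ∀ y ∈ N, σ • y = y) ∨
          (∀ σ ∈ A.inertiaSubgroupIn ℚ,
            ∀ y : Submodule.torsionBy ℤ (E⁄Qbar).Point n, σ • y - y ∈ N)) := by
  subst hE
  exact local_alternative_of_equiv (S51lib.vcEquivBaseChange (K := Qbar) E C)
    (S51lib.vcEquivBaseChange_smul E C) h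

/-- **(G4), hedge version**: the local alternative at `p` for the Frey curve. -/
theorem frey_local_alt (P : FreyPackage) :
    ∀ N : Submodule (ZMod P.p)
        (Submodule.torsionBy ℤ ((P.freyCurve : Affine ℚ)⁄Qbar).Point P.p),
      IsGaloisStable ℚ N → Nat.card N = P.p →
      ∃ A : ValuationSubring Qbar, A.LiesOverPrime P.p ∧
        ((∀ σ ∈ A.inertiaSubgroupIn ℚ, ∀ x ∈ N, σ • x = x) ∨
          (∀ σ ∈ A.inertiaSubgroupIn ℚ,
            ∀ x : Submodule.torsionBy ℤ ((P.freyCurve : Affine ℚ)⁄Qbar).Point P.p,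
              σ • x - x ∈ N)) := by
  have : Fact P.p.Prime := ⟨P.pp⟩
  have hp2 : P.p ≠ 2 := by have := P.hp5; omega
  apply local_alt_of_variableChange_eq (P.freyCurve : Affine ℚ) _ vc1 (frey_vc1 P)
  by_cases hc : (P.p : ℤ) ∣ P.c
  · apply local_alt_of_variableChange_eq _ _ (vc2 ((P.a ^ P.p : ℤ) : ℚ))
      (legW_vc2 (P.a ^ P.p) (P.b ^ P.p))
    have hb0 : P.a ^ P.p * (P.a ^ P.p + P.b ^ P.p) ≠ 0 := by
      rw [P.hFLT]; exact frey_legShift_b_ne_zero P
    have hd : (P.a ^ P.p + (P.a ^ P.p + P.b ^ P.p)) ^ 2 -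
        4 * (P.a ^ P.p * (P.a ^ P.p + P.b ^ P.p)) ≠ 0 := by
      rw [P.hFLT]; exact frey_legShift_disc_ne_zero P
    have hred : ¬ (P.p : ℤ) ∣ (P.a ^ P.p + (P.a ^ P.p + P.b ^ P.p)) ∧
        (P.p : ℤ) ∣ P.a ^ P.p * (P.a ^ P.p + P.b ^ P.p) := by
      rw [P.hFLT]; exact frey_legShift_red P hc
    exact legW_local_alternative hp2 _ _ hb0 hd (Or.inr hred)
  · exact legW_local_alternative hp2 _ _ (frey_leg_b_ne_zero P) (frey_leg_disc_ne_zero P)
      (frey_leg_red P hc)

end Fermat.Agent.S13lib.Node2
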