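/-
S13 library, brick [D] (residue characteristic 2): torsion points of
`y² + x y = x³ + a x² + b x` near the node, unipotence of inertia, and rational torsion.
-/
import Mathlib
import Fermat.Agent.S13lib.Node2.Add
import Fermat.Agent.S05lib.KerRed.Main
import Fermat.Agent.S05lib.SigmaVal

set_option autoImplicit false
set_option linter.unusedSectionVars false

namespace Fermat.Agent.S13lib.Node2

open WeierstrassCurve WeierstrassCurve.Affine
open Fermat.Agent.S05lib (Cong IntegralModel InE1 inE1_zero inE1_some InE1.add InE1.neg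
  inE1_sub_of_congr InE1.eq_zero_of_nsmul one_lt_sigma sigma_eq_one kerRed mem_kerRed
  val_natCast_le_one)

section

variable {K : Type*} [Field K] [DecidableEq K] {Γ₀ : Type*} [LinearOrderedCommGroupWithZero Γ₀]
  {v : Valuation K Γ₀} {a b r : K}

namespace Node2Data

variable (h : Node2Data v a b r)
include h

lemma integralModel : IntegralModel v (nodeW a b) where
  a₁ := by simp
  a₂ := by simpa using h.va
  a₃ := by simp
  a₄ := by simpa using h.hb.le
  a₆ := by simp

/-- A point whose component is trivial modulo `v b ^ 2` has nonsingular reduction. -/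
lemma isE0_of_cong_one {S : (nodeW a b).toAffine.Point} (hS : Cong v b (comp v a b r S) 1) :
    IsE0 v a b S := by
  obtain ⟨m, hm⟩ := hS
  rw [one_mul] at hm
  have hb0 : 0 < v b := h.vb_pos
  have hb1 : v b < 1 := h.hb
  have hanti := zpow_right_strictAnti₀ hb0 hb1
  have hdich : 1 ≤ v b ^ (2 * m) ∨ v b ^ (2 * m) < v b := by
    rcases le_or_gt m 0 with hm0 | hm0
    · left
      exact one_le_zpow_of_nonpos₀ hb0 hb1.le (by omega)
    · right
      have : (1 : ℤ) < 2 * m := by omega
      have := hanti this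
      simpa using this
  rcases h.classify S with hc | hc | hc | hc
  · exact hc
  · exfalso
    rw [h.comp_of_far hc] at hm
    rcases hdich with h1 | h1
    · rw [← hm] at h1; exact absurd hb1 (not_lt.mpr h1)
    · rw [← hm] at h1; exact lt_irrefl _ h1
  · exfalso
    rcases S with _ | ⟨x, y, hS'⟩
    · exact hc
    · rw [h.comp_of_plus hc] at hm
      obtain ⟨h1, h2, -⟩ := hc
      rcases hdich with h3 | h3
      · rw [← hm] at h3; exact absurd h2 (not_lt.mpr h3)
      · rw [← hm] at h3; exact absurd h3 (not_lt.mpr h1.le)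
  · exfalso
    rcases S with _ | ⟨x, y, hS'⟩
    · exact hc
    · rw [h.comp_of_minus hc] at hm
      obtain ⟨h1, h2, -⟩ := hc
      have hx0 : v x ≠ 0 := (lt_trans hb0 h1).ne'
      have hm' : v x = v b ^ (2 * (-m)) := by
        rw [mul_neg, zpow_neg, ← hm, inv_inv]
      have hdich' : 1 ≤ v b ^ (2 * (-m)) ∨ v b ^ (2 * (-m)) < v b := by
        rcases le_or_gt (-m) 0 with hm0 | hm0
        · left
          exact one_le_zpow_of_nonpos₀ hb0 hb1.le (by omega)
        · right
          have : (1 : ℤ) < 2 * (-m) := by omega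
          have := hanti this
          simpa using this
      rcases hdich' with h3 | h3
      · rw [← hm'] at h3; exact absurd h2 (not_lt.mpr h3)
      · rw [← hm'] at h3; exact absurd h3 (not_lt.mpr h1.le)

lemma v_two_le : v (2 : K) ≤ 1 := by
  have := val_natCast_le_one (v := v) 2
  simpa using this

lemma v_three_le : v (3 : K) ≤ 1 := by
  have := val_natCast_le_one (v := v) 3
  simpa using this

/-- The `y`-coordinate of an integral point is integral. -/
lemma vy_le_one {x y : K} (hxy : y ^ 2 + x * y = x ^ 3 + a * x ^ 2 + b * x) (hx : v x = 1) :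
    v y ≤ 1 := by
  by_contra hy
  push Not at hy
  have hy0 : 0 < v y := lt_trans zero_lt_one hy
  have h1 : v (x * y) < v (y ^ 2) := by
    rw [map_mul, hx, one_mul, map_pow, pow_two]
    calc v y = 1 * v y := (one_mul _).symm
      _ < v y * v y := (mul_lt_mul_iff_left₀ hy0).mpr hy
  have h2 : v (y ^ 2 + x * y) = v y ^ 2 := by
    rw [Valuation.map_add_eq_of_lt_left _ h1, map_pow]
  have h3 : v (y ^ 2 + x * y) ≤ 1 := by
    rw [hxy]
    have := h.v_rhs_le (x := x) hx.ge
    rwa [hx, one_pow] at this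
  rw [h2] at h3
  exact absurd (one_lt_pow₀ hy (by norm_num)) (not_lt.mpr h3)

/-- The reduction of an integral point with `v x = 1` is a nonsingular point. -/
lemma nonsingular_reduction {x y : K} (hxy : y ^ 2 + x * y = x ^ 3 + a * x ^ 2 + b * x)
    (hx : v x = 1) :
    v y ≤ 1 ∧ (v ((nodeW a b).a₁ * y - (3 * x ^ 2 + 2 * (nodeW a b).a₂ * x + (nodeW a b).a₄)) = 1 ∨
      v (2 * y + (nodeW a b).a₁ * x + (nodeW a b).a₃) = 1) := by
  have hy1 : v y ≤ 1 := h.vy_le_one hxy hx
  refine ⟨hy1, ?_⟩
  simp only [nodeW_a₁, nodeW_a₂, nodeW_a₃, nodeW_a₄, one_mul, add_zero]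
  have hFx : v (y - (3 * x ^ 2 + 2 * a * x + b)) ≤ 1 := by
    apply Valuation.map_sub_le _ hy1
    apply Valuation.map_add_le
    · apply Valuation.map_add_le
      · rw [map_mul, map_pow, hx, one_pow, mul_one]; exact h.v_three_le
      · rw [map_mul, map_mul, hx, mul_one]
        calc v 2 * v a ≤ 1 * 1 := mul_le_mul' h.v_two_le h.va
          _ = 1 := one_mul _
    · exact h.hb.le
  have hFy : v (2 * y + x) ≤ 1 := by
    apply Valuation.map_add_le _ _ hx.le
    rw [map_mul]
    calc v 2 * v y ≤ 1 * 1 := mul_le_mul' h.v_two_le hy1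
      _ = 1 := one_mul _
  by_contra hcon
  push Not at hcon
  have hFx' : v (y - (3 * x ^ 2 + 2 * a * x + b)) < 1 := lt_of_le_of_ne hFx hcon.1
  have hFy' : v (2 * y + x) < 1 := lt_of_le_of_ne hFy hcon.2
  have hid : x ^ 3 = b * x - (x * (y - (3 * x ^ 2 + 2 * a * x + b)) + y * (2 * y + x)) := by
    linear_combination (2 : K) * hxy
  have h3 : v (x ^ 3) < 1 := by
    rw [hid]
    apply Valuation.map_sub_lt
    · rw [map_mul, hx, mul_one]; exact h.hb
    · apply Valuation.map_add_lt
      · rw [map_mul, hx, one_mul]; exact hFx'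
      · rw [map_mul]
        calc v y * v (2 * y + x) ≤ 1 * v (2 * y + x) := mul_le_mul_left hy1 _
          _ = v (2 * y + x) := one_mul _
          _ < 1 := hFy'
  rw [map_pow, hx, one_pow] at h3
  exact lt_irrefl _ h3

/-- For a ring endomorphism `σ` preserving the valuation ring and trivial on the residue field,
with induced map `τ` on points: `τ S - S` lies in the kernel of reduction for `S ∈ E₀`. -/
lemma inE1_tau_sub_of_E0 (σ : K →+* K) (hσA : ∀ x, v (σ x) ≤ 1 ↔ v x ≤ 1)
    (hσ1 : ∀ x, v x ≤ 1 → v (σ x - x) < 1)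
    (τ : (nodeW a b).toAffine.Point →+ (nodeW a b).toAffine.Point)
    (hτ : ∀ (x y : K) (hP : (nodeW a b).toAffine.Nonsingular x y),
      ∃ hP' : (nodeW a b).toAffine.Nonsingular (σ x) (σ y), τ (.some x y hP) = .some (σ x) (σ y) hP')
    {S : (nodeW a b).toAffine.Point} (hS : IsE0 v a b S) :
    InE1 v (nodeW a b).toAffine (τ S - S) := by
  have hW := h.integralModel
  rcases S with _ | ⟨x, y, hS'⟩
  · have : (Point.zero : (nodeW a b).toAffine.Point) = 0 := rfl
    rw [this, map_zero, sub_zero]
    exact inE1_zero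
  · have hx1 : 1 ≤ v x := hS
    obtain ⟨hS'', eS⟩ := hτ x y hS'
    rw [eS]
    rcases lt_or_eq_of_le hx1 with hlt | heq
    · rw [sub_eq_add_neg]
      apply InE1.add hW
      · rw [inE1_some]; exact one_lt_sigma hσA hlt
      · exact InE1.neg ((inE1_some hS').mpr hlt)
    · have hxσ : v (σ x) = 1 := sigma_eq_one hσA heq.symm
      obtain ⟨hy1, -⟩ := h.nonsingular_reduction ((nd_equation_iff a b x y).mp hS'.1) heq.symm
      obtain ⟨hy1', hns⟩ :=
        h.nonsingular_reduction ((nd_equation_iff a b (σ x) (σ y)).mp hS''.1) hxσ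
      exact inE1_sub_of_congr hW hS'' hS' hxσ.le hy1' heq.symm.le hy1
        (hσ1 x heq.symm.le) (hσ1 y hy1) hns

/-- A ring endomorphism fixing `a` and trivial on the residue field fixes the slope `r`. -/
lemma sigma_r (σ : K →+* K) (hσ1 : ∀ x, v x ≤ 1 → v (σ x - x) < 1) (hσa : σ a = a) :
    σ r = r := by
  have h1 : σ r ^ 2 + σ r = r ^ 2 + r := by
    rw [← map_pow, ← map_add, h.hr, hσa]
  have h2 : (σ r - r) * (σ r + r + 1) = 0 := by linear_combination h1
  rcases mul_eq_zero.mp h2 with h3 | h3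
  · exact sub_eq_zero.mp h3
  · exfalso
    have h4 : σ r - r = -(2 * r + 1) := by linear_combination h3
    have h5 := hσ1 r h.hr1
    rw [h4, Valuation.map_neg, h.hs] at h5
    exact lt_irrefl _ h5

/-- The component function is invariant under a valuation-preserving endomorphism fixing `r`. -/
lemma comp_tau (σ : K →+* K) (hσv : ∀ x, v (σ x) = v x) (hσr : σ r = r)
    (τ : (nodeW a b).toAffine.Point →+ (nodeW a b).toAffine.Point)
    (hτ : ∀ (x y : K) (hP : (nodeW a b).toAffine.Nonsingular x y),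
      ∃ hP' : (nodeW a b).toAffine.Nonsingular (σ x) (σ y), τ (.some x y hP) = .some (σ x) (σ y) hP')
    (P : (nodeW a b).toAffine.Point) : comp v a b r (τ P) = comp v a b r P := by
  rcases P with _ | ⟨x, y, hP⟩
  · have : (Point.zero : (nodeW a b).toAffine.Point) = 0 := rfl
    rw [this, map_zero]
  · obtain ⟨hP', e⟩ := hτ x y hP
    rw [e]
    simp only [comp]
    have e1 : σ y - r * σ x = σ (y - r * x) := by rw [map_sub, map_mul, hσr]
    rw [e1, hσv, hσv]

/-- **Unipotence**: for `σ` preserving the valuation, trivial on the residue field and fixing `a`,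
the induced map `τ` on points satisfies `(τ - 1)² = 0` on the `p`-torsion (`v p = 1`). -/
theorem unipotent (σ : K →+* K) (hσv : ∀ x, v (σ x) = v x)
    (hσ1 : ∀ x, v x ≤ 1 → v (σ x - x) < 1) (hσa : σ a = a)
    (τ : (nodeW a b).toAffine.Point →+ (nodeW a b).toAffine.Point)
    (hτ : ∀ (x y : K) (hP : (nodeW a b).toAffine.Nonsingular x y),
      ∃ hP' : (nodeW a b).toAffine.Nonsingular (σ x) (σ y), τ (.some x y hP) = .some (σ x) (σ y) hP')
    {p : ℕ} (hpv : v (p : K) = 1)
    (P : (nodeW a b).toAffine.Point) (hP : p • P = 0) : τ (τ P - P) = τ P - P := by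
  have hb0 := h.hb0
  have hvb0 : v b ≠ 0 := h.vb_pos.ne'
  have hW := h.integralModel
  have hσA : ∀ x, v (σ x) ≤ 1 ↔ v x ≤ 1 := fun x => by rw [hσv]
  have hσr := h.sigma_r σ hσ1 hσa
  set Q := τ P - P with hQ
  have hc1 : comp v a b r (τ P) = comp v a b r P := h.comp_tau σ hσv hσr τ hτ P
  have hc2 := h.comp_add Q P
  have hQP : Q + P = τ P := by rw [hQ]; abel
  rw [hQP, hc1] at hc2
  obtain ⟨m, hm⟩ := hc2
  have hcP : comp v a b r P ≠ 0 := h.comp_ne_zero P
  have hcQ : Cong v b (comp v a b r Q) 1 := by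
    refine ⟨-m, ?_⟩
    have h1 : comp v a b r P * 1 = comp v a b r P * (comp v a b r Q * v b ^ (2 * m)) := by
      rw [mul_one]
      calc comp v a b r P = comp v a b r Q * comp v a b r P * v b ^ (2 * m) := hm
        _ = comp v a b r P * (comp v a b r Q * v b ^ (2 * m)) := by
            rw [mul_comm (comp v a b r Q), mul_assoc]
    have h2 : 1 = comp v a b r Q * v b ^ (2 * m) := mul_left_cancel₀ hcP h1
    rw [one_mul, mul_neg, zpow_neg]
    exact eq_inv_of_mul_eq_one_left h2.symm
  have hQE0 := h.isE0_of_cong_one hcQ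
  have hE1 := h.inE1_tau_sub_of_E0 σ hσA hσ1 τ hτ hQE0
  have hpQ : p • Q = 0 := by
    rw [hQ, smul_sub, ← map_nsmul, hP, map_zero, sub_zero]
  have hpQ' : p • (τ Q - Q) = 0 := by
    rw [smul_sub, ← map_nsmul, hpQ, map_zero, sub_zero]
  have := InE1.eq_zero_of_nsmul hW hE1 hpv hpQ'
  exact sub_eq_zero.mp this

end Node2Data

end

end Fermat.Agent.S13lib.Node2
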