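/-
S13 library, brick [D] (residue characteristic 2): a rational point of prime order `p ≥ 5` on
`y² + x y = x³ + a x² + b x` (node at `2`, `p ∤ v(b)`) does not exist.
-/
import Mathlib
import Fermat.Agent.S13lib.Node2.Torsion

set_option autoImplicit false
set_option linter.unusedSectionVars false

namespace Fermat.Agent.S13lib.Node2

open WeierstrassCurve WeierstrassCurve.Affine
open Fermat.Agent.S05lib (Cong IntegralModel InE1 inE1_zero inE1_some InE1.add InE1.neg
  inE1_sub_of_congr InE1.eq_zero_of_nsmul kerRed mem_kerRed)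

section

variable {K : Type*} [Field K] [DecidableEq K] {Γ₀ : Type*} [LinearOrderedCommGroupWithZero Γ₀]
  {v : Valuation K Γ₀} {a b r : K}

variable (a b) in
/-- Rationality of a point with respect to a predicate `Rt` on coordinates. -/
def PtRat (Rt : K → Prop) : (nodeW a b).toAffine.Point → Prop
  | .zero => True
  | .some x y _ => Rt x ∧ Rt y

namespace Node2Data

variable (h : Node2Data v a b r)
include h

/-- If a multiple `n • P` with `n` prime to `p` lies in the kernel of reduction and `p • P = 0`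
(`v p = 1`), then `P = 0`. -/
lemma eq_zero_of_coprime_nsmul_inE1 {p : ℕ} (hpv : v (p : K) = 1)
    {P : (nodeW a b).toAffine.Point} (hP : p • P = 0) {n : ℕ} (hn : Nat.Coprime n p)
    (hnP : InE1 v (nodeW a b).toAffine (n • P)) : P = 0 := by
  have hW := h.integralModel
  obtain ⟨u, w, huw⟩ := Nat.isCoprime_iff_coprime.mpr hn
  have h1 : P = u • (n • P) + w • (p • P) := by
    rw [← natCast_zsmul P n, ← natCast_zsmul P p, smul_smul, smul_smul, ← add_smul, huw,
      one_smul]
  have h2 : P ∈ kerRed hW := by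
    rw [h1, hP, smul_zero, add_zero]
    exact (kerRed hW).zsmul_mem ((mem_kerRed hW).mpr hnP) u
  exact InE1.eq_zero_of_nsmul hW ((mem_kerRed hW).mp h2) hpv hP

/-- **No rational torsion of prime order `p ≥ 5`**: `Rt` is a predicate singling out a subfield
with value group `⟨v π⟩` and residue field `𝔽₂`; `v b = v π ^ M` with `p ∤ M`. -/
theorem rational_torsion_eq_zero (Rt : K → Prop) {π : K} (hπ0 : π ≠ 0) (hπ1 : v π < 1)
    (h2 : v (2 : K) < 1)
    (hval : ∀ x, Rt x → x ≠ 0 → ∃ k : ℤ, v x = v π ^ k)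
    (hres : ∀ x, Rt x → v x = 1 → v (x - 1) < 1)
    {M : ℤ} (hbM : v b = v π ^ M) {p : ℕ} (hp : p.Prime) (hp2 : p ≠ 2) (hp3 : p ≠ 3)
    (hpM : ¬ (p : ℤ) ∣ M) (hpv : v (p : K) = 1)
    (P : (nodeW a b).toAffine.Point) (hP : p • P = 0) (hR1 : PtRat a b Rt P)
    (hR2 : PtRat a b Rt (2 • P)) : P = 0 := by
  have hW := h.integralModel
  have hπpos : 0 < v π := zero_lt_iff.mpr ((Valuation.ne_zero_iff v).mpr hπ0)
  have hπne : v π ≠ 0 := hπpos.ne'
  have hinj := (zpow_right_strictAnti₀ hπpos hπ1).injective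
  have hpZ : Prime (p : ℤ) := Nat.prime_iff_prime_int.mp hp
  -- Step 1: the component of `P` is a power of `v π`
  have hk : ∃ k : ℤ, comp v a b r P = v π ^ k := by
    rcases h.classify P with hc | hc | hc | hc
    · exact ⟨0, by rw [h.comp_of_E0 hc, zpow_zero]⟩
    · exact ⟨M, by rw [h.comp_of_far hc, hbM]⟩
    · rcases P with _ | ⟨x, y, hxy⟩
      · exact absurd hc id
      · have hx0 : x ≠ 0 := by
          rintro rfl
          have := hc.1
          rw [map_zero] at this
          exact not_lt.mpr zero_le this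
        obtain ⟨k, hk⟩ := hval x hR1.1 hx0
        exact ⟨k, by rw [h.comp_of_plus hc, hk]⟩
    · rcases P with _ | ⟨x, y, hxy⟩
      · exact absurd hc id
      · have hx0 : x ≠ 0 := by
          rintro rfl
          have := hc.1
          rw [map_zero] at this
          exact not_lt.mpr zero_le this
        obtain ⟨k, hk⟩ := hval x hR1.1 hx0
        exact ⟨-k, by rw [h.comp_of_minus hc, hk, zpow_neg]⟩
  obtain ⟨k, hk⟩ := hk
  -- Step 2: the component of `P` is trivial
  have hc := h.comp_nsmul P p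
  rw [hP, h.comp_zero, hk] at hc
  obtain ⟨m, hm⟩ := hc
  have hm' : v π ^ (0 : ℤ) = v π ^ (k * p + M * (2 * m)) := by
    rw [zpow_zero, zpow_add₀ hπne, zpow_mul, zpow_mul, zpow_natCast, ← hbM]
    exact hm
  have hkm : 0 = k * p + M * (2 * m) := hinj hm'
  have hpm : (p : ℤ) ∣ m := by
    have h1 : (p : ℤ) ∣ M * (2 * m) := ⟨-k, by linarith⟩
    rcases hpZ.dvd_or_dvd h1 with h3 | h3
    · exact absurd h3 hpM
    · rcases hpZ.dvd_or_dvd h3 with h4 | h4
      · exfalso
        have h5 : p ∣ 2 := by exact_mod_cast h4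
        exact hp2 ((Nat.prime_dvd_prime_iff_eq hp Nat.prime_two).mp h5)
      · exact h4
  obtain ⟨m₁, rfl⟩ := hpm
  have hp0 : (p : ℤ) ≠ 0 := hpZ.ne_zero
  have hk' : k = M * (2 * (-m₁)) := by
    have h1 : (p : ℤ) * (k + M * (2 * m₁)) = 0 := by linarith
    rcases mul_eq_zero.mp h1 with h3 | h3
    · exact absurd h3 hp0
    · linarith
  have hcong : Cong v b (comp v a b r P) 1 := by
    refine ⟨-m₁, ?_⟩
    rw [one_mul, hk, hk', zpow_mul, ← hbM]
  have hE0 := h.isE0_of_cong_one hcong
  -- Step 3: the reduction has at most three rational nonsingular points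
  have hsmall : ∀ y : K, Rt y → v y ≤ 1 → v y < 1 ∨ v (y - 1) < 1 := by
    intro y hy hy1
    rcases lt_or_eq_of_le hy1 with hlt | heq
    · exact Or.inl hlt
    · exact Or.inr (hres y hy heq)
  have hcop1 : Nat.Coprime 1 p := Nat.coprime_one_left p
  have hcop2 : Nat.Coprime 2 p :=
    (Nat.coprime_primes Nat.prime_two hp).mpr (Ne.symm hp2)
  have hcop3 : Nat.Coprime 3 p :=
    (Nat.coprime_primes Nat.prime_three hp).mpr (Ne.symm hp3)
  rcases P with _ | ⟨x, y, hxy⟩
  · rfl
  have hx1 : 1 ≤ v x := hE0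
  rcases lt_or_eq_of_le hx1 with hlt | heq
  · exact h.eq_zero_of_coprime_nsmul_inE1 hpv hP hcop1
      (by rw [one_nsmul]; exact (inE1_some hxy).mpr hlt)
  have hxv : v x = 1 := heq.symm
  have hQE0 : IsE0 v a b (2 • Point.some x y hxy) := by
    rw [two_nsmul]; exact h.comp_add_EE hE0 hE0
  rcases hQ : (2 • Point.some x y hxy : (nodeW a b).toAffine.Point) with _ | ⟨x₂, y₂, hxy₂⟩
  · exact h.eq_zero_of_coprime_nsmul_inE1 hpv hP hcop2 (by rw [hQ]; trivial)
  rw [hQ] at hQE0 hR2
  have hx₂1 : 1 ≤ v x₂ := hQE0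
  rcases lt_or_eq_of_le hx₂1 with hlt₂ | heq₂
  · exact h.eq_zero_of_coprime_nsmul_inE1 hpv hP hcop2
      (by rw [hQ]; exact (inE1_some hxy₂).mpr hlt₂)
  have hx₂v : v x₂ = 1 := heq₂.symm
  obtain ⟨hy1, -⟩ := h.nonsingular_reduction ((nd_equation_iff a b x y).mp hxy.1) hxv
  obtain ⟨hy₂1, hns⟩ := h.nonsingular_reduction ((nd_equation_iff a b x₂ y₂).mp hxy₂.1) hx₂v
  have hxs : v (x - 1) < 1 := hres x hR1.1 hxv
  have hx₂s : v (x₂ - 1) < 1 := hres x₂ hR2.1 hx₂v
  have hxx : v (x₂ - x) < 1 := by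
    have e : x₂ - x = (x₂ - 1) - (x - 1) := by ring
    rw [e]; exact Valuation.map_sub_lt _ hx₂s hxs
  by_cases hyy : v (y₂ - y) < 1
  · -- `2P - P = P` is in the kernel of reduction
    have h3 := inE1_sub_of_congr hW hxy₂ hxy hx₂v.le hy₂1 hxv.le hy1 hxx hyy hns
    rw [← hQ] at h3
    have e : (2 • Point.some x y hxy - Point.some x y hxy : (nodeW a b).toAffine.Point) =
        1 • Point.some x y hxy := by
      rw [two_nsmul, one_nsmul, add_sub_cancel_right]
    rw [e] at h3
    exact h.eq_zero_of_coprime_nsmul_inE1 hpv hP hcop1 h3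
  · -- `2P - (-P) = 3P` is in the kernel of reduction
    have hneg : v (y₂ - (nodeW a b).toAffine.negY x y) < 1 := by
      rw [nd_negY]
      rcases hsmall y hR1.2 hy1 with hys | hys <;> rcases hsmall y₂ hR2.2 hy₂1 with hy₂s | hy₂s
      · exact absurd (Valuation.map_sub_lt _ hy₂s hys) hyy
      · have e : y₂ - (-y - x) = ((y₂ - 1) + y) + ((x - 1) + 2) := by ring
        rw [e]
        exact Valuation.map_add_lt _ (Valuation.map_add_lt _ hy₂s hys)
          (Valuation.map_add_lt _ hxs h2)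
      · have e : y₂ - (-y - x) = (y₂ + (y - 1)) + ((x - 1) + 2) := by ring
        rw [e]
        exact Valuation.map_add_lt _ (Valuation.map_add_lt _ hy₂s hys)
          (Valuation.map_add_lt _ hxs h2)
      · exfalso
        have e : y₂ - y = (y₂ - 1) - (y - 1) := by ring
        rw [e] at hyy
        exact hyy (Valuation.map_sub_lt _ hy₂s hys)
    have hxy' : (nodeW a b).toAffine.Nonsingular x ((nodeW a b).toAffine.negY x y) :=
      (Affine.nonsingular_neg ..).mpr hxy
    have hny1 : v ((nodeW a b).toAffine.negY x y) ≤ 1 := by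
      rw [nd_negY]
      exact Valuation.map_sub_le _ (by rwa [Valuation.map_neg]) hxv.le
    have h3 := inE1_sub_of_congr hW hxy₂ hxy' hx₂v.le hy₂1 hxv.le hny1 hxx hneg hns
    have e : (Point.some x₂ y₂ hxy₂ - Point.some x _ hxy' : (nodeW a b).toAffine.Point) =
        3 • Point.some x y hxy := by
      rw [← hQ, ← Point.neg_some hxy, sub_neg_eq_add, two_nsmul]
      rw [show (3 : ℕ) = 2 + 1 from rfl, add_nsmul, two_nsmul, one_nsmul]
    rw [e] at h3
    exact h.eq_zero_of_coprime_nsmul_inE1 hpv hP hcop3 h3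

end Node2Data

end

end Fermat.Agent.S13lib.Node2
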